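import Mathlib
import Fermat.Agent.LT.Unfold

/-!
# Induced `G`-sets

`D` is a `G`-set, `Γ` a subgroup of `G`, `D₁` a `Γ`-set and `j : D₁ → D` exhibits `D` as
`G ×_Γ D₁` (`IsInduced`).  Then `G`-invariant functions on `X × D` are the same as `Γ`-invariant
functions on `X × D₁` for every `G`-set `X`; invariant integrals agree.
-/

set_option autoImplicit false

noncomputable section

open MeasureTheory ENNReal MulAction

namespace Fermat.Agent.LT.Adapt

/-- `D` is the `G`-set induced from the `Γ`-set `D₁` through `j`. -/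
structure IsInduced {G D D₁ : Type*} [Group G] [MulAction G D] (Γ : Subgroup G) [MulAction Γ D₁]
    (j : D₁ → D) : Prop where
  inj : Function.Injective j
  smul : ∀ (γ : Γ) (d : D₁), j (γ • d) = (γ : G) • j d
  cover : ∀ d : D, ∃ (g : G) (d₁ : D₁), g • j d₁ = d
  mem_of : ∀ (g : G) (d d' : D₁), g • j d = j d' → g ∈ Γ

namespace IsInduced

variable {G D D₁ X M : Type*} [Group G] [MulAction G D] {Γ : Subgroup G} [MulAction Γ D₁]
  {j : D₁ → D} [MulAction G X]

/-- From a transitive action on the second factor: `D = D₁ × D₂`. -/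
theorem prod {G D₁ D₂ : Type*} [Group G] [MulAction G D₁] [MulAction G D₂] (b : D₂)
    (h : ∀ d : D₂, ∃ g : G, g • b = d) :
    IsInduced (G := G) (D := D₁ × D₂) (D₁ := D₁) (stabilizer G b) (fun d => (d, b)) where
  inj d d' h := (Prod.ext_iff.mp h).1
  smul γ d := Prod.ext rfl (γ.2 : (γ : G) • b = b).symm
  cover := by
    rintro ⟨d₁, d₂⟩
    obtain ⟨g, hg⟩ := h d₂
    exact ⟨g, g⁻¹ • d₁, Prod.ext (smul_inv_smul g d₁) hg⟩
  mem_of g d d' h := (Prod.ext_iff.mp h).2

/-- the group element moving `d` to the image of `j` -/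
def rep (h : IsInduced Γ j) (d : D) : G := (h.cover d).choose

/-- the base component of `d` -/
def pt (h : IsInduced Γ j) (d : D) : D₁ := (h.cover d).choose_spec.choose

theorem rep_smul_pt (h : IsInduced Γ j) (d : D) : h.rep d • j (h.pt d) = d :=
  (h.cover d).choose_spec.choose_spec

/-- extension of a function on `X × D₁`. -/
def ext (h : IsInduced Γ j) (ψ : X × D₁ → M) : X × D → M :=
  fun z => ψ ((h.rep z.2)⁻¹ • z.1, h.pt z.2)

/-- restriction of a function on `X × D` -/
def res (_h : IsInduced Γ j) (f : X × D → M) : X × D₁ → M := fun z => f (z.1, j z.2)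

/-- two representations of the same element -/
theorem exists_gamma (h : IsInduced Γ j) {g g' : G} {d d' : D₁} (he : g • j d = g' • j d') :
    ∃ γ : Γ, g' = g * (γ : G)⁻¹ ∧ d' = γ • d := by
  have h1 : (g'⁻¹ * g) • j d = j d' := by rw [mul_smul, he, inv_smul_smul]
  refine ⟨⟨g'⁻¹ * g, h.mem_of _ _ _ h1⟩, by simp, ?_⟩
  apply h.inj
  rw [h.smul]
  exact h1.symm

theorem ext_smul (h : IsInduced Γ j) {ψ : X × D₁ → M} (hψ : ∀ (γ : Γ) z, ψ (γ • z) = ψ z)
    (g : G) (x : X) (d : D₁) : h.ext ψ (g • x, g • j d) = ψ (x, d) := by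
  obtain ⟨γ, h1, h2⟩ := h.exists_gamma (h.rep_smul_pt (g • j d))
  have h3 : (h.rep (g • j d))⁻¹ * g = (γ : G)⁻¹ := inv_mul_eq_iff_eq_mul.mpr h1
  have h4 : h.pt (g • j d) = γ⁻¹ • d := eq_inv_smul_iff.mpr h2.symm
  change ψ ((h.rep (g • j d))⁻¹ • g • x, h.pt (g • j d)) = _
  rw [smul_smul, h3, h4]
  exact hψ γ⁻¹ (x, d)

theorem ext_inv (h : IsInduced Γ j) {ψ : X × D₁ → M} (hψ : ∀ (γ : Γ) z, ψ (γ • z) = ψ z)
    (g : G) (z : X × D) : h.ext ψ (g • z) = h.ext ψ z := by
  obtain ⟨x, d⟩ := z
  obtain ⟨k, d₁, rfl⟩ := h.cover d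
  have h1 := h.ext_smul hψ (g * k) (k⁻¹ • x) d₁
  have h2 := h.ext_smul hψ k (k⁻¹ • x) d₁
  simp only [mul_smul, smul_inv_smul] at h1 h2
  rw [h2, ← h1]
  rfl

theorem ext_apply_j (h : IsInduced Γ j) {ψ : X × D₁ → M} (hψ : ∀ (γ : Γ) z, ψ (γ • z) = ψ z)
    (x : X) (d : D₁) : h.ext ψ (x, j d) = ψ (x, d) := by
  have := h.ext_smul hψ 1 x d
  rwa [one_smul, one_smul] at this

/-- the extension at a point of the form `(x, g • j d)` -/
theorem ext_apply (h : IsInduced Γ j) {ψ : X × D₁ → M} (hψ : ∀ (γ : Γ) z, ψ (γ • z) = ψ z)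
    (g : G) (x : X) (d : D₁) : h.ext ψ (x, g • j d) = ψ (g⁻¹ • x, d) := by
  have := h.ext_smul hψ g (g⁻¹ • x) d
  rwa [smul_inv_smul] at this

theorem res_ext (h : IsInduced Γ j) {ψ : X × D₁ → M} (hψ : ∀ (γ : Γ) z, ψ (γ • z) = ψ z) :
    h.res (h.ext ψ) = ψ := by
  funext z
  exact h.ext_apply_j hψ z.1 z.2

theorem res_inv (h : IsInduced Γ j) {f : X × D → M} (hf : ∀ (g : G) z, f (g • z) = f z)
    (γ : Γ) (z : X × D₁) : h.res f (γ • z) = h.res f z := by
  change f ((γ • z).1, j (γ • z).2) = f (z.1, j z.2)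
  rw [Prod.smul_snd, h.smul, Prod.smul_fst]
  exact hf (γ : G) (z.1, j z.2)

/-- an invariant function at any point, in terms of its restriction -/
theorem eq_res (h : IsInduced Γ j) {f : X × D → M} (hf : ∀ (g : G) z, f (g • z) = f z)
    (g : G) (x : X) (d : D₁) : f (x, g • j d) = h.res f (g⁻¹ • x, d) := by
  have := hf g (g⁻¹ • x, j d)
  rw [Prod.smul_mk, smul_inv_smul] at this
  exact this

theorem ext_res (h : IsInduced Γ j) {f : X × D → M} (hf : ∀ (g : G) z, f (g • z) = f z) :
    h.ext (h.res f) = f := by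
  funext ⟨x, d⟩
  obtain ⟨g, d₁, rfl⟩ := h.cover d
  rw [h.ext_apply (h.res_inv hf), h.eq_res hf]

variable (X M) in
/-- invariant functions on `X × D` and on `X × D₁`. -/
def invEquiv (h : IsInduced Γ j) :
    {f : X × D → M // ∀ (g : G) z, f (g • z) = f z} ≃
      {ψ : X × D₁ → M // ∀ (γ : Γ) z, ψ (γ • z) = ψ z} where
  toFun f := ⟨h.res f.1, h.res_inv f.2⟩
  invFun ψ := ⟨h.ext ψ.1, h.ext_inv ψ.2⟩
  left_inv f := Subtype.ext (h.ext_res f.2)
  right_inv ψ := Subtype.ext (h.res_ext ψ.2)

/-- two invariant functions with the same restriction are equal -/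
theorem eq_of_res_eq (h : IsInduced Γ j) {f f' : X × D → M} (hf : ∀ (g : G) z, f (g • z) = f z)
    (hf' : ∀ (g : G) z, f' (g • z) = f' z) (he : h.res f = h.res f') : f = f' := by
  rw [← h.ext_res hf, he, h.ext_res hf']

/-- a property of all values -/
theorem forall_iff (h : IsInduced Γ j) {f : X × D → M} (hf : ∀ (g : G) z, f (g • z) = f z)
    (p : M → Prop) : (∀ z, p (f z)) ↔ ∀ z, p (h.res f z) := by
  refine ⟨fun H z => H _, fun H => ?_⟩
  rintro ⟨x, d⟩
  obtain ⟨g, d₁, rfl⟩ := h.cover d
  rw [h.eq_res hf]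
  exact H _

/-- continuity in the first variable -/
theorem continuous_iff (h : IsInduced Γ j) [TopologicalSpace X] [ContinuousConstSMul G X]
    [TopologicalSpace M] {f : X × D → M} (hf : ∀ (g : G) z, f (g • z) = f z) :
    (∀ d, Continuous fun x => f (x, d)) ↔ ∀ d, Continuous fun x => h.res f (x, d) := by
  refine ⟨fun H d => H (j d), fun H d => ?_⟩
  obtain ⟨g, d₁, rfl⟩ := h.cover d
  simp_rw [h.eq_res hf]
  exact (H d₁).comp (continuous_const_smul g⁻¹)

/-- measurability in the first variable -/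
theorem measurable_iff (h : IsInduced Γ j) [MeasurableSpace X] [MeasurableConstSMul G X]
    [MeasurableSpace M] {f : X × D → M} (hf : ∀ (g : G) z, f (g • z) = f z) :
    (∀ d, Measurable fun x => f (x, d)) ↔ ∀ d, Measurable fun x => h.res f (x, d) := by
  refine ⟨fun H d => H (j d), fun H d => ?_⟩
  obtain ⟨g, d₁, rfl⟩ := h.cover d
  simp_rw [h.eq_res hf]
  exact (H d₁).comp (measurable_const_smul g⁻¹)

/-- a finite sum over points of `D` in terms of the restriction (Hecke operators) -/
theorem sum_eq (h : IsInduced Γ j) [AddCommMonoid M] {f : X × D → M}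
    (hf : ∀ (g : G) z, f (g • z) = f z) {ι : Type*} (s : Finset ι) (γ : ι → G) (e : ι → D₁)
    (x : X) : ∑ i ∈ s, f (x, γ i • j (e i)) = ∑ i ∈ s, h.res f ((γ i)⁻¹ • x, e i) :=
  Finset.sum_congr rfl fun i _ => h.eq_res hf (γ i) x (e i)

/-! ### Weights -/

section Weight

variable [MeasurableSpace X] [MeasurableSpace D] [DiscreteMeasurableSpace D]
  [MeasurableSpace D₁] [DiscreteMeasurableSpace D₁] {w : X × D₁ → ℝ≥0∞}

open Classical in
/-- the weight on `X × D` attached to a weight on `X × D₁` -/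
def extW (j : D₁ → D) (w : X × D₁ → ℝ≥0∞) : X × D → ℝ≥0∞ :=
  fun z => if hz : ∃ d₁, j d₁ = z.2 then w (z.1, hz.choose) else 0

omit [Group G] [MulAction G D] [MulAction G X] [MeasurableSpace X] [MeasurableSpace D]
  [DiscreteMeasurableSpace D] [MeasurableSpace D₁] [DiscreteMeasurableSpace D₁] in
theorem extW_j (hj : Function.Injective j) (x : X) (d : D₁) : extW j w (x, j d) = w (x, d) := by
  have hz : ∃ d₁, j d₁ = j d := ⟨d, rfl⟩
  rw [extW, dif_pos hz, hj hz.choose_spec]

omit [Group G] [MulAction G D] [MulAction G X] [MeasurableSpace X] [MeasurableSpace D]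
  [DiscreteMeasurableSpace D] [MeasurableSpace D₁] [DiscreteMeasurableSpace D₁] in
theorem extW_of_notMem {x : X} {d : D} (hd : d ∉ Set.range j) : extW j w (x, d) = 0 :=
  dif_neg hd

omit [DiscreteMeasurableSpace D₁] in
theorem isWeight_extW [Countable D] (h : IsInduced Γ j) (hw : IsWeight Γ w) :
    IsWeight G (extW (X := X) j w) where
  meas := by
    refine measurable_from_prod_countable_left fun d => ?_
    by_cases hd : d ∈ Set.range j
    · obtain ⟨d₁, rfl⟩ := hd
      simp_rw [extW_j h.inj]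
      exact hw.meas.comp measurable_prodMk_right
    · simp_rw [extW_of_notMem hd]
      exact measurable_const
  sum_eq := by
    rintro ⟨x, d⟩
    obtain ⟨k, d₁, rfl⟩ := h.cover d
    rw [← hw.sum_eq (k⁻¹ • x, d₁), ← (Equiv.mulRight k⁻¹).tsum_eq]
    simp only [Equiv.coe_mulRight, Prod.smul_mk, smul_smul, inv_mul_cancel_right]
    rw [← Subtype.coe_injective.tsum_eq (f := fun c : G =>
      extW j w ((c * k⁻¹) • x, c • j d₁)) ?_]
    · refine tsum_congr fun γ => ?_
      have : (γ : G) • j d₁ = j (γ • d₁) := (h.smul γ d₁).symm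
      rw [this, extW_j h.inj, Subgroup.smul_def γ (k⁻¹ • x), smul_smul]
    · intro c hc
      rw [Function.mem_support] at hc
      by_contra hc'
      refine hc (extW_of_notMem ?_)
      rintro ⟨d', hd'⟩
      exact hc' ⟨⟨c, h.mem_of c d₁ d' hd'.symm⟩, rfl⟩

/-! ### Integrals -/

variable {μ : Measure X} [SFinite μ]

omit [Group G] [MulAction G D] [MulAction G X] [MeasurableSpace D₁] [DiscreteMeasurableSpace D₁]
  in
theorem lintegral_prod_count [Countable D] {f : X × D → ℝ≥0∞} (hf : Measurable f) :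
    ∫⁻ z, f z ∂(μ.prod Measure.count) = ∑' d, ∫⁻ x, f (x, d) ∂μ := by
  rw [lintegral_prod _ hf.aemeasurable]
  simp_rw [lintegral_count]
  exact lintegral_tsum fun d => (hf.comp measurable_prodMk_right).aemeasurable

omit [Group G] [MulAction G D] [MulAction G X] in
theorem map_withDensity [Countable D] [Countable D₁] (hj : Function.Injective j)
    (hw : Measurable w) : ((μ.prod Measure.count).withDensity w).map (Prod.map id j) =
      (μ.prod Measure.count).withDensity (extW j w) := by
  have hm : Measurable (Prod.map id j : X × D₁ → X × D) :=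
    measurable_id.prodMap (measurable_of_countable _)
  have hW : Measurable (extW (X := X) j w) := by
    refine measurable_from_prod_countable_left fun d => ?_
    by_cases hd : d ∈ Set.range j
    · obtain ⟨d₁, rfl⟩ := hd
      simp_rw [extW_j hj]
      exact hw.comp measurable_prodMk_right
    · simp_rw [extW_of_notMem hd]
      exact measurable_const
  refine Measure.ext_of_lintegral _ fun f hf => ?_
  have hfm : Measurable fun z : X × D₁ => f (Prod.map id j z) := hf.comp hm
  rw [lintegral_map hf hm, lintegral_withDensity_eq_lintegral_mul _ hw hfm,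
    lintegral_withDensity_eq_lintegral_mul _ hW hf, lintegral_prod_count (hw.mul hfm),
    lintegral_prod_count (hW.mul hf)]
  rw [← hj.tsum_eq (f := fun d : D => ∫⁻ x, (extW j w * f) (x, d) ∂μ) ?_]
  · refine tsum_congr fun d => lintegral_congr fun x => ?_
    simp only [Pi.mul_apply, extW_j hj]
    rfl
  · intro d hd
    rw [Function.mem_support] at hd
    by_contra hd'
    refine hd ?_
    simp_rw [Pi.mul_apply, extW_of_notMem hd', zero_mul, lintegral_zero]

variable [Countable G] [Countable D] [Countable D₁] [MeasurableConstSMul G (X × D)]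
  [SMulInvariantMeasure G (X × D) (μ.prod Measure.count)]

omit [MeasurableConstSMul G (X × D)] [SMulInvariantMeasure G (X × D) (μ.prod Measure.count)]
  [Countable G] in
theorem measurableEmbedding_map (hj : Function.Injective j) :
    MeasurableEmbedding (Prod.map id j : X × D₁ → X × D) where
  injective := Function.injective_id.prodMap hj
  measurable := measurable_id.prodMap (measurable_of_countable _)
  measurableSet_image' := by
    intro s hs
    have : (Prod.map id j : X × D₁ → X × D) '' s =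
        ⋃ d : D₁, ((fun x => (x, d)) ⁻¹' s) ×ˢ ({j d} : Set D) := by
      ext ⟨x, d⟩
      simp only [Set.mem_image, Prod.exists, Prod.map_apply, id_eq, Prod.mk.injEq, Set.mem_iUnion,
        Set.mem_prod, Set.mem_preimage, Set.mem_singleton_iff]
      constructor
      · rintro ⟨x', d', h1, rfl, rfl⟩
        exact ⟨d', h1, rfl⟩
      · rintro ⟨d', h1, rfl⟩
        exact ⟨x, d', h1, rfl, rfl⟩
    rw [this]
    exact MeasurableSet.iUnion fun d =>
      (measurable_prodMk_right hs).prod (measurableSet_singleton _)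

/-- Integrals of invariant functions over `G \ (X × D)` and `Γ \ (X × D₁)` agree. -/
theorem integral_res (h : IsInduced Γ j) {f : X × D → ℂ} (hf : Measurable f)
    (hinv : ∀ (g : G) z, f (g • z) = f z) {w' : X × D → ℝ≥0∞} (hw' : IsWeight G w')
    (hw : IsWeight Γ w) :
    ∫ z, f z ∂((μ.prod Measure.count).withDensity w') =
      ∫ z, h.res f z ∂((μ.prod Measure.count).withDensity w) := by
  rw [hw'.integral_eq (h.isWeight_extW hw) hf hinv, ← map_withDensity h.inj hw.meas,
    (measurableEmbedding_map h.inj).integral_map]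
  rfl

theorem lintegral_res (h : IsInduced Γ j) {f : X × D → ℝ≥0∞} (hf : Measurable f)
    (hinv : ∀ (g : G) z, f (g • z) = f z) {w' : X × D → ℝ≥0∞} (hw' : IsWeight G w')
    (hw : IsWeight Γ w) :
    ∫⁻ z, f z ∂((μ.prod Measure.count).withDensity w') =
      ∫⁻ z, h.res f z ∂((μ.prod Measure.count).withDensity w) := by
  rw [hw'.lintegral_eq (h.isWeight_extW hw) hf hinv, ← map_withDensity h.inj hw.meas,
    (measurableEmbedding_map h.inj).lintegral_map]
  rfl

end Weight

end IsInduced

end Fermat.Agent.LT.Adapt
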