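import Mathlib
import Fermat.Agent.LT.SAdele
import Fermat.Agent.LT.Space
import Fermat.Agent.LT.CT
import Fermat.Agent.LT.Kappa.Hecke

/-!
# The action of `GL₂(F_∞)` on `X_∞`
-/

set_option autoImplicit false

noncomputable section

open NumberField IsDedekindDomain Matrix

namespace Fermat.Agent.LT.Adapt

open Loc Kap H3

variable {F : Type*} [Field F]

variable (F) in
/-- evaluation at a place -/
def evR (w : InfinitePlace F) : Rinf F →+* ℂ := Pi.evalRingHom (fun _ : InfinitePlace F => ℂ) w

/-- `GL₂(F_∞)` acts on `X_∞`. -/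
instance actInf : MulAction (GL (Fin 2) (Rinf F)) (Xi F) where
  smul g x := fun w =>
    (GeneralLinearGroup.map (n := Fin 2) (evR F w) g) • x w
  one_smul x := by
    funext w
    change (GeneralLinearGroup.map (n := Fin 2) (evR F w) 1) • x w = x w
    rw [map_one, one_smul]
  mul_smul g h x := by
    funext w
    change (GeneralLinearGroup.map (n := Fin 2) (evR F w) (g * h)) • x w = _
    rw [map_mul, mul_smul]
    rfl

theorem inf_smul_apply (g : GL (Fin 2) (Rinf F)) (x : Xi F) (w : InfinitePlace F) :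
    (g • x) w = (GeneralLinearGroup.map (n := Fin 2) (evR F w) g) • x w := rfl

theorem map_map_gl {R₁ R₂ R₃ : Type*} [CommRing R₁] [CommRing R₂] [CommRing R₃] (f : R₁ →+* R₂)
    (g : R₂ →+* R₃) (M : GL (Fin 2) R₁) : GeneralLinearGroup.map (n := Fin 2) g
      (GeneralLinearGroup.map (n := Fin 2) f M) = GeneralLinearGroup.map (n := Fin 2) (g.comp f) M :=
  by
  apply Units.ext
  ext i j
  rfl

theorem gl_ext {R : Type*} [CommRing R] {g h : GL (Fin 2) R} (H : ∀ i j, g i j = h i j) : g = h :=
  Units.ext (by ext i j; exact H i j)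

theorem map_inf_smul (γ : GL (Fin 2) F) (x : Xi F) :
    GeneralLinearGroup.map (n := Fin 2) (algebraMap F (Rinf F)) γ • x = γ • x := by
  funext w
  rw [inf_smul_apply, Xi.smul_apply, map_map_gl]
  rfl

theorem nn_inf_smul_pt (t : Rinf F) {z : InfinitePlace F → ℂ} {y : InfinitePlace F → ℝ}
    (hy : ∀ w, 0 < y w) : nn t • pt z y = pt (z + t) y := by
  funext w
  rw [inf_smul_apply, map_nn]
  have h1 : (nn (evR F w t) : GL (Fin 2) ℂ) = nb (t w) := by
    apply Units.ext
    rfl
  rw [h1]
  apply H3.ext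
  · rw [nb_smul_z, pt_z hy, pt_z hy]; rfl
  · rw [nb_smul_y, pt_y hy, pt_y hy]

end Fermat.Agent.LT.Adapt
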