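import Mathlib
import Fermat.Agent.LT.Level.Defs
import Fermat.Agent.LT.SRing

/-!
# `GL₂(F)` and the places outside `S` when `O_S` is a principal ideal domain

* `exists_gamma_off` : `∏'_{v ∉ S} GL₂(F_v) = GL₂(F) ∏_{v ∉ S} GL₂(O_v) F_v^×`;
* `mem_GamS_iff` : `GL₂(F) ∩ ∏_{v ∉ S} GL₂(O_v) F_v^× = F^× GL₂(O_S)`.
-/

set_option autoImplicit false

noncomputable section

open NumberField IsDedekindDomain Matrix WithZero HeightOneSpectrum
open scoped WithZero

namespace Fermat.Agent.LT.Adapt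

open Loc Lvl CFT.SUnits

variable {F : Type*} [Field F] [NumberField F]

/-- the group `GL₂(O_v)` -/
abbrev KO (v : HeightOneSpectrum (𝓞 F)) : Subgroup (GL (Fin 2) (v.adicCompletion F)) :=
  GLO (Valued.v : Valuation (v.adicCompletion F) ℤᵐ⁰)

/-- the group `GL₂(O_v) F_v^×` -/
abbrev KZ (v : HeightOneSpectrum (𝓞 F)) : Subgroup (GL (Fin 2) (v.adicCompletion F)) :=
  KO v ⊔ Subgroup.center _

theorem gmap_scalar (v : HeightOneSpectrum (𝓞 F)) (a : Fˣ) :
    gmap v (GeneralLinearGroup.scalar (Fin 2) a) = GeneralLinearGroup.scalar (Fin 2)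
      (Units.map (algebraMap F (v.adicCompletion F) : F →* v.adicCompletion F) a) := by
  ext i j
  rw [gmap_apply, GeneralLinearGroup.coe_scalar, GeneralLinearGroup.coe_scalar]
  fin_cases i <;> fin_cases j <;> simp

theorem scalar_mem_KZ (v : HeightOneSpectrum (𝓞 F)) (z : (v.adicCompletion F)ˣ) :
    GeneralLinearGroup.scalar (Fin 2) z ∈ KZ v :=
  mem_sup_center.mpr ⟨z, 1, (KO v).one_mem, by rw [mul_one]⟩

theorem valued_units_map (v : HeightOneSpectrum (𝓞 F)) (a : Fˣ) :
    Valued.v ((Units.map (algebraMap F (v.adicCompletion F) : F →* v.adicCompletion F) a :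
      (v.adicCompletion F)ˣ) : v.adicCompletion F) = exp (-ord v a) := by
  change Valued.v (ι v (a : F)) = _
  rw [v_ι, valuation_eq_exp_neg_ord]

/-- **class number one**: a finite family of local matrices outside `S` comes from `B(F)`. -/
theorem exists_gamma_off_bor {S : Finset (HeightOneSpectrum (𝓞 F))} (hcl : CFT.Global.ClTrivial S)
    (g : ∀ v : HeightOneSpectrum (𝓞 F), GL (Fin 2) (v.adicCompletion F))
    (hg : {v | v ∉ S ∧ g v ∉ KZ v}.Finite) :
    ∃ (x : Fˣ) (c : F), ∀ v ∉ S, (gmap v (bor x c))⁻¹ * g v ∈ KZ v := by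
  classical
  set T : Finset (HeightOneSpectrum (𝓞 F)) := hg.toFinset with hT
  choose z a b k hk hgk using fun v : HeightOneSpectrum (𝓞 F) =>
    exists_iwasawa (w := (Valued.v : Valuation (v.adicCompletion F) ℤᵐ⁰)) (g v)
  -- the determinant
  let D : HeightOneSpectrum (𝓞 F) →₀ ℤ := Finsupp.onFinset T
    (fun v => if v ∈ T then - log (Valued.v (a v : v.adicCompletion F)) else 0) (fun v hv => by
      by_contra h
      exact hv (if_neg h))
  have hD1 : ∀ v ∈ T, Valued.v (a v : v.adicCompletion F) = exp (-D v) := by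
    intro v hv
    have h0 : Valued.v (a v : v.adicCompletion F) ≠ 0 :=
      (Valuation.ne_zero_iff _).mpr (Units.ne_zero _)
    rw [show D v = - log (Valued.v (a v : v.adicCompletion F)) from if_pos hv, neg_neg,
      exp_log h0]
  have hD0 : ∀ v ∉ T, D v = 0 := fun v hv => if_neg hv
  obtain ⟨x, hx⟩ := hcl D
  -- the upper right entry
  obtain ⟨N, hN⟩ : ∃ N : ℤ, ∀ v ∈ T, D v ≤ N := by
    obtain ⟨N, hN⟩ := (T.image D).bddAbove
    exact ⟨N, fun v hv => hN (Finset.mem_coe.mpr (Finset.mem_image_of_mem D hv))⟩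
  obtain ⟨c, hcT, hc⟩ := exists_OS_approx T (fun v => b v.1) (γ := exp (-N)) exp_ne_zero
  refine ⟨x, c, fun v hvS => ?_⟩
  rw [map_bor]
  set x' : (v.adicCompletion F)ˣ :=
    Units.map (algebraMap F (v.adicCompletion F) : F →* v.adicCompletion F) x with hx'
  have hvx : Valued.v (x' : v.adicCompletion F) = exp (-D v) := by
    rw [hx', valued_units_map, hx v hvS]
  by_cases hvT : v ∈ T
  · -- places in `T`
    have h1 : (bor x' (algebraMap F (v.adicCompletion F) c))⁻¹ * g v =
        GeneralLinearGroup.scalar (Fin 2) (z v) *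
          (bor (x'⁻¹ * a v) (((x'⁻¹ : (v.adicCompletion F)ˣ) : v.adicCompletion F) *
            (b v - algebraMap F (v.adicCompletion F) c)) * k v) := by
      rw [hgk v, ← mul_assoc, ← mul_assoc, ← scalar_mul_comm, ← mul_assoc]
      congr 1
      rw [mul_assoc]
      congr 1
      rw [bor_inv, bor_mul]
      congr 1
      ring
    rw [h1]
    refine mem_sup_center.mpr ⟨z v, _, (KO v).mul_mem (bor_mem_GLO ?_ ?_) (hk v), rfl⟩
    · rw [Units.val_mul, map_mul, Units.val_inv_eq_inv_val, map_inv₀, hvx, hD1 v hvT,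
        inv_mul_cancel₀ exp_ne_zero]
    · rw [map_mul, Units.val_inv_eq_inv_val, map_inv₀, hvx, ← WithZero.exp_neg, neg_neg]
      have h2 := hc ⟨v, hvT⟩
      rw [Valuation.map_sub_swap] at h2
      have h3 : Valued.v (b v - algebraMap F (v.adicCompletion F) c) ≤ exp (-D v) :=
        h2.le.trans (exp_le_exp.mpr (neg_le_neg (hN v hvT)))
      calc exp (D v) * Valued.v (b v - algebraMap F (v.adicCompletion F) c)
          ≤ exp (D v) * exp (-D v) := mul_le_mul_right h3 _
        _ = 1 := by rw [← exp_add, add_neg_cancel, exp_zero]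
  · -- the other places
    have h1 : bor x' (algebraMap F (v.adicCompletion F) c) ∈ KO v := by
      refine bor_mem_GLO ?_ ?_
      · rw [hvx, hD0 v hvT, neg_zero, exp_zero]
      · rw [v_ι]
        exact hcT v hvT
    have h2 : g v ∈ KZ v := by
      by_contra h
      exact hvT (by rw [hT, Set.Finite.mem_toFinset]; exact ⟨hvS, h⟩)
    exact (KZ v).mul_mem ((KZ v).inv_mem (Subgroup.mem_sup_left h1)) h2

theorem exists_gamma_off {S : Finset (HeightOneSpectrum (𝓞 F))} (hcl : CFT.Global.ClTrivial S)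
    (g : ∀ v : HeightOneSpectrum (𝓞 F), GL (Fin 2) (v.adicCompletion F))
    (hg : {v | v ∉ S ∧ g v ∉ KZ v}.Finite) :
    ∃ γ : GL (Fin 2) F, ∀ v ∉ S, (gmap v γ)⁻¹ * g v ∈ KZ v := by
  obtain ⟨x, c, h⟩ := exists_gamma_off_bor hcl g hg
  exact ⟨bor x c, h⟩

variable (S : Finset (HeightOneSpectrum (𝓞 F)))

/-- the elements of `GL₂(F)` in `GL₂(O_v) F_v^×` for all `v ∉ S`. -/
def GamS : Subgroup (GL (Fin 2) F) where
  carrier := {γ | ∀ v ∉ S, gmap v γ ∈ KZ v}
  mul_mem' ha hb v hv := by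
    rw [map_mul]
    exact (KZ v).mul_mem (ha v hv) (hb v hv)
  one_mem' v _ := by
    rw [map_one]
    exact (KZ v).one_mem
  inv_mem' ha v hv := by
    rw [map_inv]
    exact (KZ v).inv_mem (ha v hv)

theorem mem_GamS {γ : GL (Fin 2) F} : γ ∈ GamS S ↔ ∀ v ∉ S, gmap v γ ∈ KZ v := Iff.rfl

/-- `GL₂(O_S) → GL₂(F)` -/
abbrev ofOS : GL (Fin 2) (OS S) →* GL (Fin 2) F :=
  GeneralLinearGroup.map (n := Fin 2) (algebraMap (OS S) F)

theorem ofOS_mem_KO (δ : GL (Fin 2) (OS S)) {v : HeightOneSpectrum (𝓞 F)} (hv : v ∉ S) :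
    gmap v (ofOS S δ) ∈ KO v := by
  refine mem_GLO_iff.mpr ⟨fun i j => ?_, fun i j => ?_⟩
  · change Valued.v (ι v ((δ i j : OS S) : F)) ≤ 1
    rw [v_ι]
    exact (δ i j).2 v hv
  · rw [← map_inv, ← map_inv]
    change Valued.v (ι v ((δ⁻¹ i j : OS S) : F)) ≤ 1
    rw [v_ι]
    exact (δ⁻¹ i j).2 v hv

theorem ofOS_mem_GamS (δ : GL (Fin 2) (OS S)) : ofOS S δ ∈ GamS S := fun _ hv =>
  Subgroup.mem_sup_left (ofOS_mem_KO S δ hv)

theorem scalar_mem_GamS (a : Fˣ) : GeneralLinearGroup.scalar (Fin 2) a ∈ GamS S := fun v _ => by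
  rw [gmap_scalar]
  exact scalar_mem_KZ v _

theorem gmap_det (v : HeightOneSpectrum (𝓞 F)) (γ : GL (Fin 2) F) :
    (gmap v γ).det = Units.map (algebraMap F (v.adicCompletion F) : F →* v.adicCompletion F)
      γ.det := by
  apply Units.ext
  rw [GeneralLinearGroup.val_det_apply, Units.coe_map, GeneralLinearGroup.val_det_apply]
  exact (RingHom.map_det (algebraMap F (v.adicCompletion F)) _).symm

theorem det_scalar (v : HeightOneSpectrum (𝓞 F)) (z : (v.adicCompletion F)ˣ) :
    (GeneralLinearGroup.scalar (Fin 2) z).det = z ^ 2 := by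
  apply Units.ext
  rw [GeneralLinearGroup.val_det_apply, GeneralLinearGroup.coe_scalar]
  simp [sq]

theorem scalar_mem_KO {v : HeightOneSpectrum (𝓞 F)} {z : (v.adicCompletion F)ˣ}
    (h : Valued.v (z : v.adicCompletion F) = 1) : GeneralLinearGroup.scalar (Fin 2) z ∈ KO v := by
  refine ⟨fun i j => ?_, ?_⟩
  · rw [GeneralLinearGroup.coe_scalar, Matrix.scalar_apply, Matrix.diagonal_apply]
    split_ifs
    · exact h.le
    · rw [map_zero]
      exact zero_le
  · rw [det_scalar, Units.val_pow_eq_pow_val, map_pow, h, one_pow]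

theorem mul_eq_one_of_map {S : Finset (HeightOneSpectrum (𝓞 F))}
    {M N : Matrix (Fin 2) (Fin 2) (OS S)} {A B : Matrix (Fin 2) (Fin 2) F}
    (hM : M.map (algebraMap (OS S) F) = A) (hN : N.map (algebraMap (OS S) F) = B)
    (h : A * B = 1) : M * N = 1 := by
  have hinj : Function.Injective (algebraMap (OS S) F) := Subtype.coe_injective
  refine Matrix.map_injective hinj ?_
  change (M * N).map (algebraMap (OS S) F) = (1 : Matrix (Fin 2) (Fin 2) (OS S)).map
    (algebraMap (OS S) F)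
  rw [Matrix.map_mul, hM, hN, h, Matrix.map_one _ (map_zero _) (map_one _)]

/-- **the stabiliser of the base points outside `S`**. -/
theorem mem_GamS_iff (hcl : CFT.Global.ClTrivial S) {γ : GL (Fin 2) F} : γ ∈ GamS S ↔
    ∃ (a : Fˣ) (δ : GL (Fin 2) (OS S)), γ = GeneralLinearGroup.scalar (Fin 2) a * ofOS S δ := by
  constructor
  · intro h
    choose! z k hk hz using fun v (hv : v ∉ S) => mem_sup_center.mp (h v hv)
    have hdet : ∀ v ∉ S, ord v γ.det = 2 * (- log (Valued.v (z v : v.adicCompletion F))) := by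
      intro v hv
      have h1 := congrArg (fun g : GL (Fin 2) (v.adicCompletion F) =>
        Valued.v ((g.det : (v.adicCompletion F)ˣ) : v.adicCompletion F)) (hz v hv)
      rw [gmap_det, valued_units_map, map_mul, det_scalar, Units.val_mul, Units.val_pow_eq_pow_val,
        map_mul, map_pow, (hk v hv).2, mul_one] at h1
      have h0 : Valued.v (z v : v.adicCompletion F) ≠ 0 :=
        (Valuation.ne_zero_iff _).mpr (Units.ne_zero _)
      have h2 : exp (-ord v γ.det) = exp (2 * log (Valued.v (z v : v.adicCompletion F))) := by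
        rw [h1, two_mul, exp_add, exp_log h0, sq]
      have h3 := exp_injective h2
      omega
    let D : HeightOneSpectrum (𝓞 F) →₀ ℤ := (CFT.SUnits.div γ.det).mapRange (fun n => n / 2) rfl
    obtain ⟨x, hx⟩ := hcl D
    have hDv : ∀ v ∉ S, D v = - log (Valued.v (z v : v.adicCompletion F)) := by
      intro v hv
      change (CFT.SUnits.div γ.det v) / 2 = _
      rw [CFT.SUnits.div_apply, hdet v hv]
      omega
    have hmem : ∀ v ∉ S, gmap v (GeneralLinearGroup.scalar (Fin 2) x⁻¹ * γ) ∈ KO v := by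
      intro v hv
      have h0 : Valued.v (z v : v.adicCompletion F) ≠ 0 :=
        (Valuation.ne_zero_iff _).mpr (Units.ne_zero _)
      rw [map_mul, gmap_scalar, hz v hv, ← mul_assoc, ← map_mul]
      refine (KO v).mul_mem (scalar_mem_KO ?_) (hk v hv)
      rw [Units.val_mul, map_mul, valued_units_map, ord_inv, hx v hv, hDv v hv, neg_neg,
        WithZero.exp_neg, exp_log h0, inv_mul_cancel₀ h0]
    -- the matrix over `O_S`
    set η : GL (Fin 2) F := GeneralLinearGroup.scalar (Fin 2) x⁻¹ * γ with hη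
    have hint : ∀ i j, η i j ∈ OS S := fun i j v hv => by
      rw [← v_ι]
      exact (hmem v hv).1 i j
    have hint' : ∀ i j, η⁻¹ i j ∈ OS S := fun i j v hv => by
      rw [← v_ι]
      have := ((KO v).inv_mem (hmem v hv)).1 i j
      rwa [← map_inv] at this
    refine ⟨x, ⟨Matrix.of fun i j => ⟨η i j, hint i j⟩, Matrix.of fun i j => ⟨η⁻¹ i j, hint' i j⟩,
      ?_, ?_⟩, ?_⟩
    · exact mul_eq_one_of_map (A := (η : Matrix (Fin 2) (Fin 2) F))
        (B := ((η⁻¹ : GL (Fin 2) F) : Matrix (Fin 2) (Fin 2) F)) rfl rfl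
        (by rw [← Units.val_mul, mul_inv_cancel, Units.val_one])
    · exact mul_eq_one_of_map (A := ((η⁻¹ : GL (Fin 2) F) : Matrix (Fin 2) (Fin 2) F))
        (B := (η : Matrix (Fin 2) (Fin 2) F)) rfl rfl
        (by rw [← Units.val_mul, inv_mul_cancel, Units.val_one])
    · have h1 : γ = GeneralLinearGroup.scalar (Fin 2) x * η := by
        rw [hη, ← mul_assoc, ← map_mul, mul_inv_cancel, map_one, one_mul]
      rw [h1]
      congr 1
  · rintro ⟨a, δ, rfl⟩
    exact (GamS S).mul_mem (scalar_mem_GamS S a) (ofOS_mem_GamS S δ)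

end Fermat.Agent.LT.Adapt
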