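import Mathlib
import Fermat.Agent.LT.Adapt.Abs
import Fermat.Agent.LT.Adapt.InfAct
import Fermat.Agent.LT.Adapt.PID
import Fermat.Agent.LT.Kappa.Inst

/-!
# From `X_∞ × D U` to `X_∞ × GL₂(∏_{v ∈ S} F_v)`

* `loc S v : GL₂(R_f) → GL₂(F_v)` (`1` for `v ∉ S`), `ofLoc`, `KS S U` the level at `S` times the
  centre, `jS S U : GL₂(R_f) → D U`;
* `exists_jS`, `mem_GamS_of_jS`, `smul_jS` : `D U` is induced from `GL₂(R_f) / KS S U`;
* `toKap f ⟨x, g⟩ = f (x, jS S U g)` and `ofKap`.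
-/

set_option autoImplicit false

noncomputable section

open NumberField IsDedekindDomain Matrix WithZero HeightOneSpectrum
open scoped WithZero Topology

namespace Fermat.Agent.LT.Adapt

open Loc Lvl Kap

variable {F : Type*} [Field F] [NumberField F] (S : Finset (HeightOneSpectrum (𝓞 F)))

/-! ### Components -/

/-- evaluation at a place of `S` -/
def evF (v : S) : Rf S →+* v.1.adicCompletion F :=
  Pi.evalRingHom (fun v : S => v.1.adicCompletion F) v

open Classical in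
/-- the component at `v`; it is `1` for `v ∉ S`. -/
def loc (v : HeightOneSpectrum (𝓞 F)) : GL (Fin 2) (Rf S) →* GL (Fin 2) (v.adicCompletion F) :=
  if h : v ∈ S then GeneralLinearGroup.map (n := Fin 2) (evF S ⟨v, h⟩) else 1

variable {S}

theorem loc_of_mem {v : HeightOneSpectrum (𝓞 F)} (h : v ∈ S) :
    loc S v = GeneralLinearGroup.map (n := Fin 2) (evF S ⟨v, h⟩) := dif_pos h

theorem loc_apply_of_mem {v : HeightOneSpectrum (𝓞 F)} (h : v ∈ S) (g : GL (Fin 2) (Rf S))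
    (i j : Fin 2) : loc S v g i j = g i j ⟨v, h⟩ := by
  rw [loc_of_mem h]
  rfl

theorem loc_of_notMem {v : HeightOneSpectrum (𝓞 F)} (h : v ∉ S) (g : GL (Fin 2) (Rf S)) :
    loc S v g = 1 := by
  rw [loc, dif_neg h]
  rfl

variable (S)

/-- `GL₂(F) → GL₂(R_f)` -/
abbrev gS : GL (Fin 2) F →* GL (Fin 2) (Rf S) :=
  GeneralLinearGroup.map (n := Fin 2) (algebraMap F (Rf S))

variable {S}

theorem loc_gS {v : HeightOneSpectrum (𝓞 F)} (h : v ∈ S) (γ : GL (Fin 2) F) :
    loc S v (gS S γ) = gmap v γ := by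
  rw [loc_of_mem h, map_map_gl]
  rfl

/-- a matrix with given components -/
def ofLoc (g : ∀ v : S, GL (Fin 2) (v.1.adicCompletion F)) : GL (Fin 2) (Rf S) where
  val := Matrix.of fun i j v => g v i j
  inv := Matrix.of fun i j v => (g v)⁻¹ i j
  val_inv := by
    refine Matrix.ext fun i j => funext fun v => ?_
    have h : ((g v * (g v)⁻¹ : GL (Fin 2) (v.1.adicCompletion F)) :
        Matrix (Fin 2) (Fin 2) (v.1.adicCompletion F)) i j =
        (1 : Matrix (Fin 2) (Fin 2) (v.1.adicCompletion F)) i j := by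
      rw [mul_inv_cancel, Units.val_one]
    rw [Matrix.mul_apply, Finset.sum_apply]
    rw [Units.val_mul, Matrix.mul_apply] at h
    refine Eq.trans ?_ (h.trans ?_)
    · rfl
    · rw [Matrix.one_apply, Matrix.one_apply]
      split_ifs <;> rfl
  inv_val := by
    refine Matrix.ext fun i j => funext fun v => ?_
    have h : (((g v)⁻¹ * g v : GL (Fin 2) (v.1.adicCompletion F)) :
        Matrix (Fin 2) (Fin 2) (v.1.adicCompletion F)) i j =
        (1 : Matrix (Fin 2) (Fin 2) (v.1.adicCompletion F)) i j := by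
      rw [inv_mul_cancel, Units.val_one]
    rw [Matrix.mul_apply, Finset.sum_apply]
    rw [Units.val_mul, Matrix.mul_apply] at h
    refine Eq.trans ?_ (h.trans ?_)
    · rfl
    · rw [Matrix.one_apply, Matrix.one_apply]
      split_ifs <;> rfl

theorem loc_ofLoc (g : ∀ v : S, GL (Fin 2) (v.1.adicCompletion F)) {v : HeightOneSpectrum (𝓞 F)}
    (h : v ∈ S) : loc S v (ofLoc g) = g ⟨v, h⟩ := by
  rw [loc_of_mem h]
  exact gl_ext fun i j => rfl

theorem loc_injective {g h : GL (Fin 2) (Rf S)} (H : ∀ v ∈ S, loc S v g = loc S v h) : g = h := by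
  refine gl_ext fun i j => funext fun v => ?_
  have := H v.1 v.2
  have h1 := congrArg (fun A : GL (Fin 2) (v.1.adicCompletion F) => A i j) this
  simp only [loc_apply_of_mem v.2] at h1
  exact h1

/-! ### The level -/

variable (S)

/-- the level at `S` times the centre. -/
def KS (U : Lev F) : Subgroup (GL (Fin 2) (Rf S)) where
  carrier := {h | ∀ v ∈ S, loc S v h ∈ U.U v ⊔ Subgroup.center _}
  mul_mem' ha hb v hv := by
    rw [map_mul]
    exact Subgroup.mul_mem _ (ha v hv) (hb v hv)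
  one_mem' v _ := by
    rw [map_one]
    exact Subgroup.one_mem _
  inv_mem' ha v hv := by
    rw [map_inv]
    exact Subgroup.inv_mem _ (ha v hv)

theorem mem_KS {U : Lev F} {h : GL (Fin 2) (Rf S)} :
    h ∈ KS S U ↔ ∀ v ∈ S, loc S v h ∈ U.U v ⊔ Subgroup.center _ := Iff.rfl

/-- the point of `D U` attached to a matrix over `R_f`. -/
def jS (U : Lev F) (g : GL (Fin 2) (Rf S)) : D U :=
  ⟨fun v => Cos.mk (U.U v) (loc S v g), S.finite_toSet.subset fun v hv => by
    by_contra h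
    refine hv ?_
    rw [loc_of_notMem h]⟩

variable {S}

theorem jS_apply (U : Lev F) (g : GL (Fin 2) (Rf S)) (v : HeightOneSpectrum (𝓞 F)) :
    jS S U g v = Cos.mk (U.U v) (loc S v g) := rfl

theorem jS_apply_of_notMem (U : Lev F) (g : GL (Fin 2) (Rf S)) {v : HeightOneSpectrum (𝓞 F)}
    (hv : v ∉ S) : jS S U g v = base U v := by
  rw [jS_apply, loc_of_notMem hv]

theorem jS_eq_iff {U : Lev F} {g g' : GL (Fin 2) (Rf S)} :
    jS S U g = jS S U g' ↔ g⁻¹ * g' ∈ KS S U := by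
  constructor
  · intro h v _
    have h1 := congrArg (fun d : D U => d v) h
    simp only [jS_apply] at h1
    rw [map_mul, map_inv]
    exact QuotientGroup.eq.mp h1
  · intro h
    refine RProd.ext' fun v => ?_
    rw [jS_apply, jS_apply]
    by_cases hv : v ∈ S
    · refine QuotientGroup.eq.mpr ?_
      have := h v hv
      rwa [map_mul, map_inv] at this
    · rw [loc_of_notMem hv, loc_of_notMem hv]

theorem jS_mul {U : Lev F} (g : GL (Fin 2) (Rf S)) {k : GL (Fin 2) (Rf S)} (hk : k ∈ KS S U) :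
    jS S U (g * k) = jS S U g :=
  (jS_eq_iff.mpr (by rwa [inv_mul_cancel_left])).symm

/-- `U` is hyperspecial outside `S`. -/
def OffS (S : Finset (HeightOneSpectrum (𝓞 F))) (U : Lev F) : Prop := ∀ v ∉ S, U.U v = KO v

theorem smul_base_iff_KZ {U : Lev F} (hU : OffS S U) {v : HeightOneSpectrum (𝓞 F)} (hv : v ∉ S)
    {γ : GL (Fin 2) F} : γ • base U v = base U v ↔ gmap v γ ∈ KZ v := by
  rw [smulF_def, Cos.smul_mk, mul_one]
  change Cos.mk (U.U v) (gmap v γ) = Cos.mk (U.U v) 1 ↔ _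
  rw [Cos.mk_eq_one_iff, mem_sup_center, hU v hv]

/-- equivariance under `GL₂(F) ∩ ∏_{v ∉ S} GL₂(O_v) F_v^×`. -/
theorem smul_jS {U : Lev F} (hU : OffS S U) {γ : GL (Fin 2) F} (hγ : γ ∈ GamS S)
    (g : GL (Fin 2) (Rf S)) : γ • jS S U g = jS S U (gS S γ * g) := by
  refine RProd.ext' fun v => ?_
  rw [RProd.smul_apply]
  by_cases hv : v ∈ S
  · rw [jS_apply, jS_apply, map_mul, loc_gS hv]
    rfl
  · rw [jS_apply_of_notMem _ _ hv, jS_apply_of_notMem _ _ hv]
    exact (smul_base_iff_KZ hU hv).mpr (hγ v hv)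

theorem mem_GamS_of_jS {U : Lev F} (hU : OffS S U) {γ : GL (Fin 2) F} {g g' : GL (Fin 2) (Rf S)}
    (h : γ • jS S U g = jS S U g') : γ ∈ GamS S := by
  intro v hv
  have h1 := congrArg (fun d : D U => d v) h
  simp only [RProd.smul_apply] at h1
  rw [jS_apply_of_notMem _ _ hv, jS_apply_of_notMem _ _ hv] at h1
  exact (smul_base_iff_KZ hU hv).mp h1

/-- **every point of `D U` is equivalent to one which is the base point outside `S`.** -/
theorem exists_jS_bor (hcl : CFT.Global.ClTrivial S) {U : Lev F} (hU : OffS S U) (d : D U) :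
    ∃ (x : Fˣ) (c : F) (g : GL (Fin 2) (Rf S)), bor x c • jS S U g = d := by
  choose g hg using fun v => Cos.mk_surjective (d v)
  have hfin : {v | v ∉ S ∧ g v ∉ KZ v}.Finite := by
    refine d.fin.subset fun v hv => ?_
    intro h
    refine hv.2 ?_
    have h1 : Cos.mk (U.U v) (g v) = Cos.mk (U.U v) 1 := (hg v).trans h
    rw [Cos.mk_eq_one_iff, hU v hv.1] at h1
    exact mem_sup_center.mpr h1
  obtain ⟨x, c, hγ⟩ := exists_gamma_off_bor hcl g hfin
  refine ⟨x, c, ofLoc fun v : S => (gmap v.1 (bor x c))⁻¹ * g v.1, ?_⟩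
  refine RProd.ext' fun v => ?_
  rw [RProd.smul_apply]
  by_cases hv : v ∈ S
  · rw [jS_apply, loc_ofLoc _ hv, smulF_def, Cos.smul_mk, mul_inv_cancel_left]
    exact hg v
  · rw [jS_apply_of_notMem _ _ hv, smulF_def, Cos.smul_mk, mul_one, ← hg v]
    refine QuotientGroup.eq.mpr ?_
    rw [hU v hv]
    exact hγ v hv

theorem exists_jS (hcl : CFT.Global.ClTrivial S) {U : Lev F} (hU : OffS S U) (d : D U) :
    ∃ (γ : GL (Fin 2) F) (g : GL (Fin 2) (Rf S)), γ • jS S U g = d := by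
  obtain ⟨x, c, g, h⟩ := exists_jS_bor hcl hU d
  exact ⟨bor x c, g, h⟩

theorem dg_mem_KS (U : Lev F) (z : (Rf S)ˣ) : (dg z z : GL (Fin 2) (Rf S)) ∈ KS S U := by
  intro v hv
  refine Subgroup.mem_sup_right ?_
  rw [GeneralLinearGroup.center_eq_range_scalar]
  refine ⟨Units.map (evF S ⟨v, hv⟩ : Rf S →* v.adicCompletion F) z, ?_⟩
  rw [loc_of_mem hv, Kap.map_dg]
  apply Units.ext
  ext i j
  rw [GeneralLinearGroup.coe_scalar]
  fin_cases i <;> fin_cases j <;> simp [Kap.coe_dg]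

/-- the level is open -/
theorem exists_nhds_KS (S : Finset (HeightOneSpectrum (𝓞 F))) (U : Lev F) :
    ∃ N ∈ 𝓝 (0 : Rf S), ∀ h : GL (Fin 2) (Rf S),
      (∀ i j, (h : Matrix (Fin 2) (Fin 2) (Rf S)) i j -
        (1 : Matrix (Fin 2) (Fin 2) (Rf S)) i j ∈ N) → h ∈ KS S U := by
  choose n hn using U.isOpen
  refine ⟨{x | ∀ v : S, Valued.v (x v) < exp (-(n v.1 : ℤ))}, ?_, fun h hh v hv => ?_⟩
  · have : {x : Rf S | ∀ v : S, Valued.v (x v) < exp (-(n v.1 : ℤ))} =
        Set.univ.pi fun v : S => {y : v.1.adicCompletion F | Valued.v (y - 0) < exp (-(n v.1 : ℤ))} := by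
      ext x
      simp
    rw [this]
    refine (isOpen_set_pi Set.finite_univ fun v _ =>
      isOpen_ball v.1 0 exp_ne_zero).mem_nhds ?_
    intro v _
    simp
  · refine Subgroup.mem_sup_left (hn v _ fun i j => ?_)
    have h1 := hh i j ⟨v, hv⟩
    rw [Matrix.sub_apply]
    have h2 : (loc S v h : Matrix (Fin 2) (Fin 2) (v.adicCompletion F)) i j =
        h i j ⟨v, hv⟩ := loc_apply_of_mem hv h i j
    rw [h2]
    refine le_of_lt (lt_of_eq_of_lt ?_ h1)
    congr 1
    rw [Pi.sub_apply]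
    congr 1
    rw [Matrix.one_apply, Matrix.one_apply]
    split_ifs <;> rfl

/-! ### The action of `GL₂(F)` on both sides -/

/-- `GL₂(F) → GL₂(A)` -/
abbrev gA (S : Finset (HeightOneSpectrum (𝓞 F))) : GL (Fin 2) F →* GL (Fin 2) (AS S) :=
  GeneralLinearGroup.map (n := Fin 2) (algebraMap F (AS S))

theorem gA_smul_mk (γ : GL (Fin 2) F) (x : Xi F) (g : GL (Fin 2) (Rf S)) :
    gA S γ • (⟨x, g⟩ : Sp (Xi F) (Rf S)) = ⟨γ • x, gS S γ * g⟩ := by
  rw [smul_mk, map_map_gl, map_map_gl]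
  have h1 : GeneralLinearGroup.map (n := Fin 2)
      ((RingHom.fst (Rinf F) (Rf S)).comp (algebraMap F (AS S))) γ • x = γ • x :=
    map_inf_smul γ x
  rw [h1]
  rfl

theorem gA_smul (γ : GL (Fin 2) F) (p : Sp (Xi F) (Rf S)) :
    gA S γ • p = ⟨γ • p.i, gS S γ * p.f⟩ := gA_smul_mk γ p.i p.f

theorem map_OS_eq (δ : GL (Fin 2) (OS S)) :
    GeneralLinearGroup.map (n := Fin 2) (algebraMap (OS S) (AS S)) δ = gA S (ofOS S δ) :=
  gl_ext fun _ _ => rfl

omit [NumberField F] in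
theorem scalar_smul_Xi (z : (Rinf F)ˣ) (x : Xi F) : (dg z z : GL (Fin 2) (Rinf F)) • x = x := by
  funext w
  rw [inf_smul_apply]
  refine H3.smul_of_scalar ?_ ?_ ?_ (x w) <;> simp [Kap.map_dg, Kap.coe_dg]

omit [NumberField F] in
theorem continuous_nn_smul (x : Xi F) :
    Continuous fun t : Rinf F => (nn t : GL (Fin 2) (Rinf F)) • x := by
  refine continuous_pi fun w => H3.continuous_iff.mpr ?_
  have h : ∀ t : Rinf F, ((nn t : GL (Fin 2) (Rinf F)) • x) w = nb (t w) • x w := by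
    intro t
    rw [inf_smul_apply, Kap.map_nn]
    congr 1
    exact Units.ext rfl
  constructor
  · have : (fun t : Rinf F => (((nn t : GL (Fin 2) (Rinf F)) • x) w).z) =
        fun t => (x w).z + t w := by
      funext t
      rw [h, nb_smul_z]
    exact this ▸ continuous_const.add (continuous_apply w)
  · have : (fun t : Rinf F => (((nn t : GL (Fin 2) (Rinf F)) • x) w).y) =
        fun _ => (x w).y := by
      funext t
      rw [h, nb_smul_y]
    exact this ▸ continuous_const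

/-! ### Functions -/

variable (S)

/-- the function on `X_∞ × GL₂(R_f)` attached to a function on `X_∞ × D U`. -/
def toKap (U : Lev F) (f : Xi F × D U → ℂ) : Sp (Xi F) (Rf S) → ℂ := fun p => f (p.i, jS S U p.f)

variable {S} {U : Lev F} {f : Xi F × D U → ℂ}

theorem toKap_mk (x : Xi F) (g : GL (Fin 2) (Rf S)) :
    toKap S U f (⟨x, g⟩ : Sp (Xi F) (Rf S)) = f (x, jS S U g) := rfl

/-- left translation by `GL₂(F)`. -/
theorem toKap_gA (hf : ∀ (γ : GL (Fin 2) F) z, f (γ • z) = f z) (γ : GL (Fin 2) F)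
    (p : Sp (Xi F) (Rf S)) : toKap S U f (gA S γ • p) = f (p.i, γ⁻¹ • jS S U (gS S γ * p.f)) := by
  rw [gA_smul, toKap_mk, ← hf γ⁻¹, Prod.smul_mk, inv_smul_smul]

theorem toKap_gA_of_mem (hU : OffS S U) (hf : ∀ (γ : GL (Fin 2) F) z, f (γ • z) = f z)
    {γ : GL (Fin 2) F} (hγ : γ ∈ GamS S) (p : Sp (Xi F) (Rf S)) :
    toKap S U f (gA S γ • p) = toKap S U f p := by
  rw [toKap_gA hf, smul_jS hU (inv_mem hγ), map_inv, inv_mul_cancel_left]
  rfl

/-- right invariance -/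
theorem toKap_mul (x : Xi F) (g : GL (Fin 2) (Rf S)) {k : GL (Fin 2) (Rf S)} (hk : k ∈ KS S U) :
    toKap S U f (⟨x, g * k⟩ : Sp (Xi F) (Rf S)) = toKap S U f ⟨x, g⟩ := by
  rw [toKap_mk, toKap_mk, jS_mul g hk]

theorem smooth_toKap : Smooth (toKap S U f) := by
  obtain ⟨N, hN, h⟩ := exists_nhds_KS S U
  exact ⟨N, hN, fun z g k hk => toKap_mul z g (h k hk)⟩

/-- local constancy along the unipotent radical -/
theorem isLocallyConstant_jS (U : Lev F) (g : GL (Fin 2) (Rf S)) :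
    IsLocallyConstant fun t : Rf S => jS S U (nn t * g) := by
  rw [IsLocallyConstant.iff_exists_open]
  intro t
  obtain ⟨N, hN, h⟩ := exists_nhds_KS S U
  have hcont : Continuous fun s : Rf S => (((nn t * g)⁻¹ * (nn s * g) : GL (Fin 2) (Rf S)) :
      Matrix (Fin 2) (Fin 2) (Rf S)) := by
    have h1 : Continuous fun s : Rf S => ((nn s : GL (Fin 2) (Rf S)) :
        Matrix (Fin 2) (Fin 2) (Rf S)) := by
      refine continuous_matrix fun i j => ?_
      simp only [Kap.coe_nn]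
      fin_cases i <;> fin_cases j <;> simp <;> fun_prop
    simp only [Units.val_mul]
    exact continuous_const.matrix_mul (h1.matrix_mul continuous_const)
  have h2 : ∀ᶠ s in 𝓝 t, ∀ i j, (((nn t * g)⁻¹ * (nn s * g) : GL (Fin 2) (Rf S)) :
      Matrix (Fin 2) (Fin 2) (Rf S)) i j - (1 : Matrix (Fin 2) (Fin 2) (Rf S)) i j ∈ N := by
    rw [Filter.eventually_all]
    intro i
    rw [Filter.eventually_all]
    intro j
    have h3 : Filter.Tendsto (fun s : Rf S => (((nn t * g)⁻¹ * (nn s * g) : GL (Fin 2) (Rf S)) :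
      Matrix (Fin 2) (Fin 2) (Rf S)) i j - (1 : Matrix (Fin 2) (Fin 2) (Rf S)) i j) (𝓝 t)
      (𝓝 ((((nn t * g)⁻¹ * (nn t * g) : GL (Fin 2) (Rf S)) :
      Matrix (Fin 2) (Fin 2) (Rf S)) i j - (1 : Matrix (Fin 2) (Fin 2) (Rf S)) i j)) :=
      ((hcont.matrix_elem i j).sub
        (continuous_const (y := (1 : Matrix (Fin 2) (Fin 2) (Rf S)) i j))).tendsto t
    rw [inv_mul_cancel, Units.val_one, sub_self] at h3
    exact h3 hN
  obtain ⟨V, hV, hVo, htV⟩ := mem_nhds_iff.mp h2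
  refine ⟨V, hVo, htV, fun s hs => ?_⟩
  exact (jS_eq_iff.mpr (h _ (hV hs))).symm

theorem isAut_toKap (hU : OffS S U) (hf : ∀ (γ : GL (Fin 2) F) z, f (γ • z) = f z)
    (hc : ∀ d, Continuous fun x => f (x, d)) : IsAut (A := AS S) (OS S) (toKap S U f) where
  inv δ p := by
    rw [map_OS_eq]
    exact toKap_gA_of_mem hU hf (ofOS_mem_GamS S δ) p
  scal z p := by
    obtain ⟨x, g⟩ := p
    rw [dg_smul_mk, scalar_smul_Xi, dg_comm]
    exact toKap_mul x g (dg_mem_KS U _)
  cont p := by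
    let _ : TopologicalSpace (D U) := ⊥
    have _ : DiscreteTopology (D U) := ⟨rfl⟩
    have h1 : Continuous f := continuous_prod_of_discrete_right.mpr hc
    have h2 : (fun t : AS S => toKap S U f ((nn t : GL (Fin 2) (AS S)) • p)) =
        fun t : AS S => f ((nn t.1 : GL (Fin 2) (Rinf F)) • p.i, jS S U (nn t.2 * p.f)) := by
      funext t
      obtain ⟨x, g⟩ := p
      rw [nn_smul_mk, toKap_mk]
    rw [h2]
    exact h1.comp (((continuous_nn_smul p.i).comp continuous_fst).prodMk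
      ((isLocallyConstant_jS U p.f).continuous.comp continuous_snd))

/-! ### The converse -/

/-- `GL₂(R_f)/(U_S Z)` -/
abbrev D1 (S : Finset (HeightOneSpectrum (𝓞 F))) (U : Lev F) : Type _ :=
  GL (Fin 2) (Rf S) ⧸ KS S U

/-- `GamS S` acts on `GL₂(R_f)/(U_S Z)`. -/
instance actD1 : MulAction (GamS S) (D1 S U) :=
  MulAction.compHom _ ((gS S).comp (GamS S).subtype)

/-- the map to `D U` -/
def jD (S : Finset (HeightOneSpectrum (𝓞 F))) (U : Lev F) : D1 S U → D U :=
  Quotient.lift (jS S U) fun _ _ h => jS_eq_iff.mpr (QuotientGroup.leftRel_apply.mp h)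

theorem jD_mk (g : GL (Fin 2) (Rf S)) : jD S U (QuotientGroup.mk g) = jS S U g := rfl

/-- **`D U` is induced from `GL₂(R_f)/(U_S Z)`.** -/
theorem isInduced (hcl : CFT.Global.ClTrivial S) (hU : OffS S U) :
    IsInduced (GamS S) (jD S U) where
  inj d d' h := by
    obtain ⟨g, rfl⟩ := QuotientGroup.mk_surjective d
    obtain ⟨g', rfl⟩ := QuotientGroup.mk_surjective d'
    exact QuotientGroup.eq.mpr (jS_eq_iff.mp h)
  smul γ d := by
    obtain ⟨g, rfl⟩ := QuotientGroup.mk_surjective d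
    exact (smul_jS hU γ.2 g).symm
  cover d := by
    obtain ⟨γ, g, h⟩ := exists_jS hcl hU d
    exact ⟨γ, QuotientGroup.mk g, h⟩
  mem_of γ d d' h := by
    obtain ⟨g, rfl⟩ := QuotientGroup.mk_surjective d
    obtain ⟨g', rfl⟩ := QuotientGroup.mk_surjective d'
    exact mem_GamS_of_jS hU h

/-- an invariant function is determined by its restriction -/
theorem eq_of_toKap_eq (hcl : CFT.Global.ClTrivial S) (hU : OffS S U) {f' : Xi F × D U → ℂ}
    (hf : ∀ (γ : GL (Fin 2) F) z, f (γ • z) = f z) (hf' : ∀ (γ : GL (Fin 2) F) z, f' (γ • z) = f' z)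
    (h : toKap S U f = toKap S U f') : f = f' := by
  refine (isInduced hcl hU).eq_of_res_eq hf hf' ?_
  funext ⟨x, d⟩
  obtain ⟨g, rfl⟩ := QuotientGroup.mk_surjective d
  exact congrFun h ⟨x, g⟩

theorem forall_toKap (hcl : CFT.Global.ClTrivial S) (hU : OffS S U)
    (hf : ∀ (γ : GL (Fin 2) F) z, f (γ • z) = f z) (p : ℂ → Prop) :
    (∀ z, p (f z)) ↔ ∀ q : Sp (Xi F) (Rf S), p (toKap S U f q) := by
  refine ⟨fun h q => h _, fun h => ((isInduced hcl hU).forall_iff hf p).mpr ?_⟩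
  rintro ⟨x, d⟩
  obtain ⟨g, rfl⟩ := QuotientGroup.mk_surjective d
  exact h ⟨x, g⟩

theorem continuous_toKap (hcl : CFT.Global.ClTrivial S) (hU : OffS S U)
    (hf : ∀ (γ : GL (Fin 2) F) z, f (γ • z) = f z) :
    (∀ d, Continuous fun x => f (x, d)) ↔
      ∀ g, Continuous fun x => toKap S U f (⟨x, g⟩ : Sp (Xi F) (Rf S)) := by
  refine ⟨fun h g => h (jS S U g), fun h => ((isInduced hcl hU).continuous_iff hf).mpr fun d => ?_⟩
  obtain ⟨g, rfl⟩ := QuotientGroup.mk_surjective d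
  exact h g

theorem measurable_toKap (hcl : CFT.Global.ClTrivial S) (hU : OffS S U)
    (hf : ∀ (γ : GL (Fin 2) F) z, f (γ • z) = f z) :
    (∀ d, Measurable fun x => f (x, d)) ↔
      ∀ g, Measurable fun x => toKap S U f (⟨x, g⟩ : Sp (Xi F) (Rf S)) := by
  refine ⟨fun h g => h (jS S U g), fun h => ((isInduced hcl hU).measurable_iff hf).mpr fun d => ?_⟩
  obtain ⟨g, rfl⟩ := QuotientGroup.mk_surjective d
  exact h g

/-- **from `X_∞ × GL₂(R_f)` back to `X_∞ × D U`.** -/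
theorem exists_ofKap (hcl : CFT.Global.ClTrivial S) (hU : OffS S U)
    {ψ : Sp (Xi F) (Rf S) → ℂ} (hl : ∀ γ ∈ GamS S, ∀ p, ψ (gA S γ • p) = ψ p)
    (hr : ∀ (x : Xi F) (g k : GL (Fin 2) (Rf S)), k ∈ KS S U → ψ ⟨x, g * k⟩ = ψ ⟨x, g⟩) :
    ∃ f : Xi F × D U → ℂ, (∀ (γ : GL (Fin 2) F) z, f (γ • z) = f z) ∧ toKap S U f = ψ := by
  have hq : ∀ (x : Xi F) (g g' : GL (Fin 2) (Rf S)), QuotientGroup.leftRel (KS S U) g g' →
      ψ ⟨x, g⟩ = ψ ⟨x, g'⟩ := by
    intro x g g' h
    rw [← hr x g _ (QuotientGroup.leftRel_apply.mp h), mul_inv_cancel_left]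
  set ψ₁ : Xi F × D1 S U → ℂ := fun z => Quotient.liftOn' z.2 (fun g => ψ ⟨z.1, g⟩) (hq z.1)
    with hψ₁
  have hinv : ∀ (γ : GamS S) (z : Xi F × D1 S U), ψ₁ (γ • z) = ψ₁ z := by
    rintro γ ⟨x, d⟩
    obtain ⟨g, rfl⟩ := QuotientGroup.mk_surjective d
    have := hl γ.1 γ.2 ⟨x, g⟩
    rw [gA_smul_mk] at this
    exact this
  refine ⟨(isInduced hcl hU).ext ψ₁, (isInduced hcl hU).ext_inv hinv, ?_⟩
  funext ⟨x, g⟩
  exact (isInduced hcl hU).ext_apply_j hinv x (QuotientGroup.mk g)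

/-- invariance under `GL₂(O_S)` and the scalars of `A` gives invariance under `GamS`. -/
theorem gA_of_isAut (hcl : CFT.Global.ClTrivial S) {ψ : Sp (Xi F) (Rf S) → ℂ}
    (h : IsAut (A := AS S) (OS S) ψ) {γ : GL (Fin 2) F} (hγ : γ ∈ GamS S) (p : Sp (Xi F) (Rf S)) :
    ψ (gA S γ • p) = ψ p := by
  obtain ⟨a, δ, rfl⟩ := (mem_GamS_iff S hcl).mp hγ
  rw [map_mul, mul_smul, ← map_OS_eq]
  have : gA S (GeneralLinearGroup.scalar (Fin 2) a) =
      dg (Units.map (algebraMap F (AS S) : F →* AS S) a)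
        (Units.map (algebraMap F (AS S) : F →* AS S) a) := by
    refine gl_ext fun i j => ?_
    change algebraMap F (AS S) ((GeneralLinearGroup.scalar (Fin 2) a : GL (Fin 2) F) i j) = _
    rw [GeneralLinearGroup.coe_scalar, Kap.coe_dg]
    fin_cases i <;> fin_cases j <;> simp
  rw [this, h.scal, h.inv]

end Fermat.Agent.LT.Adapt
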