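import Fermat.Agent.LT.Nbr
import Fermat.Agent.LT.Adapt.Fin
import Fermat.Agent.LT.Level.Change
import Fermat.Agent.LT.B11.Rings
import Fermat.Agent.LT.B11.Cj

/-!
# From `X_∞ × GL₂(F)` to `X_∞ × D U`

Every form `Φ` of block B11 (`IsFormA`) comes from a function of moderate growth on `X_∞ × D U`
(`IsForm0`), for every principal level `U = Lev.cong S n` with `n` large: `exists_isForm0`.

* `pF S U g`: the point of `D U` which is the class of `g : GL₂(F)` at `v ∈ S` and the base point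
  at `v ∉ S`.
-/

set_option autoImplicit false

open Matrix NumberField IsDedekindDomain HeightOneSpectrum WithZero MeasureTheory
open scoped WithZero

noncomputable section

namespace Fermat.Agent.LT.Adapt

open Loc Lvl H3 Kap

variable {F : Type*} [Field F] [NumberField F] {S : Finset (HeightOneSpectrum (𝓞 F))} {U : Lev F}

/-! ### The points `pF g` -/

/-- The point of `D U` attached to a matrix over `F`: its class at the places of `S`, the base
point outside `S`. -/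
def pF (S : Finset (HeightOneSpectrum (𝓞 F))) (U : Lev F) (g : GL (Fin 2) F) : Lvl.D U :=
  jS S U (gS S g)

theorem pF_mem {v : HeightOneSpectrum (𝓞 F)} (hv : v ∈ S) (g : GL (Fin 2) F) :
    pF S U g v = Cos.mk (U.U v) (gmap v g) := by
  rw [pF, jS_apply, loc_gS hv]

theorem pF_notMem {v : HeightOneSpectrum (𝓞 F)} (hv : v ∉ S) (g : GL (Fin 2) F) :
    pF S U g v = base U v := jS_apply_of_notMem _ _ hv

theorem smul_pF (hU : OffS S U) {γ : GL (Fin 2) F} (hγ : γ ∈ GamS S) (g : GL (Fin 2) F) :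
    γ • pF S U g = pF S U (γ * g) := by
  rw [pF, smul_jS hU hγ, pF, map_mul]

theorem exists_pF_eq (S : Finset (HeightOneSpectrum (𝓞 F))) (U : Lev F)
    (g₁ : GL (Fin 2) (Rf S)) : ∃ g, pF S U g = jS S U g₁ := by
  obtain ⟨γ, -, h⟩ := exists_smul_base U S (fun v => jS S U g₁ v)
  refine ⟨γ, RProd.ext' fun v => ?_⟩
  by_cases hv : v ∈ S
  · rw [pF_mem hv, ← h v hv, smulF_def, Cos.smul_mk, mul_one]
  · rw [pF_notMem hv, jS_apply_of_notMem _ _ hv]

theorem exists_smul_pF (hcl : CFT.Global.ClTrivial S) (hU : OffS S U) (d : Lvl.D U) :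
    ∃ γ g : GL (Fin 2) F, γ • pF S U g = d := by
  obtain ⟨γ, g₁, h⟩ := exists_jS hcl hU d
  obtain ⟨g, hg⟩ := exists_pF_eq S U g₁
  exact ⟨γ, g, by rw [hg, h]⟩

theorem exists_of_pF_eq {g g' : GL (Fin 2) F} (h : pF S U g = pF S U g') :
    ∃ (z : Fˣ) (κ : GL (Fin 2) F), (∀ v ∈ S, gmap v κ ∈ U.U v) ∧
      g' = GeneralLinearGroup.scalar (Fin 2) z * (g * κ) := by
  have h1 : ∀ v ∈ S, (g⁻¹ * g') • base U v = base U v := by
    intro v hv
    have h2 := congrArg (fun d : Lvl.D U => d v) h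
    simp only [pF_mem hv] at h2
    rw [smulF_def, Cos.smul_mk, mul_one, map_mul, map_inv, ← Cos.smul_mk, ← h2, Cos.smul_mk,
      inv_mul_cancel]
  obtain ⟨z, hz⟩ := exists_scalar_mem U S h1
  refine ⟨z⁻¹, GeneralLinearGroup.scalar (Fin 2) z * (g⁻¹ * g'), hz, ?_⟩
  rw [← mul_assoc g, ← scalar_mul_comm, mul_assoc, mul_inv_cancel_left, ← mul_assoc, ← map_mul,
    inv_mul_cancel, map_one, one_mul]

/-- Changing the coordinate at one place outside `S`. -/
theorem inv_smul_pF [DecidableEq (HeightOneSpectrum (𝓞 F))] (hU : OffS S U)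
    {v : HeightOneSpectrum (𝓞 F)} (hv : v ∉ S) {α : GL (Fin 2) F}
    (hα : ∀ w ∉ S, w ≠ v → gmap w α ∈ KZ w) (g : GL (Fin 2) F) :
    α⁻¹ • pF S U (α * g) = HK.upd (pF S U g) v (Cos.mk (U.U v) (gmap v α⁻¹)) := by
  refine RProd.ext' fun w => ?_
  rw [RProd.smul_apply]
  by_cases hwv : w = v
  · subst hwv
    rw [HK.upd_self, pF_notMem hv, smulF_def, Cos.smul_mk, mul_one]
  · rw [HK.upd_of_ne _ _ hwv]
    by_cases hw : w ∈ S
    · rw [pF_mem hw, pF_mem hw, smulF_def, Cos.smul_mk, map_mul, map_inv, inv_mul_cancel_left]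
    · rw [pF_notMem hw, pF_notMem hw]
      refine (smul_base_iff_KZ hU hw).mpr ?_
      rw [map_inv]
      exact (KZ w).inv_mem (hα w hw hwv)

/-! ### The function -/

/-- A function on `X_∞ × GL₂(F)` which descends to `X_∞ × D U`. -/
structure Desc0 (S : Finset (HeightOneSpectrum (𝓞 F))) (U : Lev F)
    (Φ : Xi F → GL (Fin 2) F → ℂ) : Prop where
  center : ∀ (z : Fˣ) P g, Φ P (GeneralLinearGroup.scalar (Fin 2) z * g) = Φ P g
  left : ∀ (δ : GL (Fin 2) (OS S)) P g, Φ (ofOS S δ • P) (ofOS S δ * g) = Φ P g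
  right : ∀ κ : GL (Fin 2) F, (∀ v ∈ S, gmap v κ ∈ U.U v) → ∀ P g, Φ P (g * κ) = Φ P g

namespace Desc0

variable {Φ : Xi F → GL (Fin 2) F → ℂ}

theorem eq_of_pF_eq (h : Desc0 S U Φ) {g g' : GL (Fin 2) F} (he : pF S U g = pF S U g')
    (P : Xi F) : Φ P g' = Φ P g := by
  obtain ⟨z, κ, hκ, rfl⟩ := exists_of_pF_eq he
  rw [h.center, h.right κ hκ]

theorem smul (h : Desc0 S U Φ) (hcl : CFT.Global.ClTrivial S) {γ : GL (Fin 2) F}
    (hγ : γ ∈ GamS S) (P : Xi F) (g : GL (Fin 2) F) : Φ (γ • P) (γ * g) = Φ P g := by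
  obtain ⟨a, δ, rfl⟩ := (mem_GamS_iff S hcl).mp hγ
  rw [mul_smul, TrivScalar.scalar_smul, mul_assoc, h.center, h.left]

/-- **the descended function** -/
theorem exists_f (h : Desc0 S U Φ) (hcl : CFT.Global.ClTrivial S) (hU : OffS S U) :
    ∃ f : Xi F × Lvl.D U → ℂ, (∀ (γ : GL (Fin 2) F) z, f (γ • z) = f z) ∧
      ∀ P g, f (P, pF S U g) = Φ P g := by
  choose r hr using exists_pF_eq S U
  obtain ⟨f, hf, hf'⟩ := exists_ofKap hcl hU (ψ := fun p => Φ p.i (r p.f)) (by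
    intro γ hγ p
    rw [gA_smul]
    change Φ (γ • p.i) (r (gS S γ * p.f)) = Φ p.i (r p.f)
    rw [← h.smul hcl hγ p.i (r p.f)]
    refine h.eq_of_pF_eq ?_ _
    rw [← smul_pF hU hγ, hr, hr, smul_jS hU hγ]) (by
    intro x g k hk
    refine h.eq_of_pF_eq ?_ _
    rw [hr, hr, jS_mul g hk])
  refine ⟨f, hf, fun P g => ?_⟩
  have h1 := congrFun hf' ⟨P, gS S g⟩
  rw [toKap_mk] at h1
  rw [pF, h1]
  exact h.eq_of_pF_eq (by rw [hr]; rfl) _

end Desc0

/-! ### A uniformizer and the representatives -/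

open Iwa

theorem exists_pi (hcl : CFT.Global.ClTrivial S) (v : HeightOneSpectrum (𝓞 F)) (hv : v ∉ S) :
    ∃ π : Fˣ, v.valuation F (π : F) = exp (-1 : ℤ) ∧
      ∀ w ∉ S, w ≠ v → w.valuation F (π : F) = 1 := by
  classical
  obtain ⟨π, hπ⟩ := hcl (Finsupp.single v 1)
  refine ⟨π, ?_, fun w hw hwv => ?_⟩
  · rw [CFT.SUnits.valuation_eq_exp_neg_ord, hπ v hv, Finsupp.single_eq_same]
  · rw [CFT.SUnits.valuation_eq_exp_neg_ord, hπ w hw, Finsupp.single_eq_of_ne hwv, neg_zero,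
      exp_zero]

theorem integer_mem_OS (S : Finset (HeightOneSpectrum (𝓞 F))) (b : 𝓞 F) : (b : F) ∈ OS S :=
  fun v _ => v.valuation_le_one b

theorem exists_mul_iff {π : F} {v : HeightOneSpectrum (𝓞 F)} (hv : v ∉ S)
    (hπ : v.valuation F π = exp (-1 : ℤ)) (hπ' : ∀ w ∉ S, w ≠ v → w.valuation F π = 1) {t : F}
    (ht : t ∈ OS S) : (∃ t' ∈ OS S, t = π * t') ↔ v.valuation F t < 1 := by
  have h0 : π ≠ 0 := by
    rintro rfl
    rw [map_zero] at hπ
    exact exp_ne_zero hπ.symm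
  constructor
  · rintro ⟨t', ht', rfl⟩
    rw [map_mul, hπ]
    have h1 : v.valuation F t' ≤ 1 := ht' v hv
    calc exp (-1 : ℤ) * v.valuation F t' ≤ exp (-1 : ℤ) * 1 := mul_le_mul_right h1 _
      _ = exp (-1 : ℤ) := mul_one _
      _ < 1 := by rw [← exp_zero, exp_lt_exp]; norm_num
  · intro h
    refine ⟨π⁻¹ * t, fun w hw => ?_, by rw [mul_inv_cancel_left₀ h0]⟩
    rw [map_mul, map_inv₀]
    by_cases hwv : w = v
    · subst hwv
      rw [hπ, ← WithZero.exp_neg, neg_neg]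
      calc exp (1 : ℤ) * w.valuation F t ≤ exp (1 : ℤ) * exp (-1 : ℤ) :=
            mul_le_mul_right (le_exp_neg_one_of_lt h) _
        _ = 1 := by rw [← exp_add, add_neg_cancel, exp_zero]
    · rw [hπ' w hw hwv, inv_one, one_mul]
      exact ht w hw

theorem isReps_of_isRep {R : Subring F} (hR : ∀ x, x ∈ R ↔ x ∈ OS S) {π : F}
    {v : HeightOneSpectrum (𝓞 F)} (hv : v ∉ S) (hπ : v.valuation F π = exp (-1 : ℤ))
    (hπ' : ∀ w ∉ S, w ≠ v → w.valuation F π = 1) {B : Finset (𝓞 F)} (hB : IsRep v B)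
    [DecidableEq F] : IsReps R π (B.image fun b : 𝓞 F => -(b : F)) := by
  have key : ∀ x ∈ R, ∀ b : 𝓞 F, (∃ t ∈ R, x - -(b : F) = π * t) ↔
      v.valuation F (x + b) < 1 := by
    intro x hx b
    have hx' : x + b ∈ OS S := (OS S).add_mem ((hR x).mp hx) (integer_mem_OS S b)
    rw [← exists_mul_iff hv hπ hπ' hx', sub_neg_eq_add]
    exact exists_congr fun t => and_congr_left fun _ => hR t
  constructor
  · intro b hb
    obtain ⟨b', -, rfl⟩ := Finset.mem_image.mp hb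
    exact R.neg_mem ((hR _).mpr (integer_mem_OS S b'))
  · intro x hx
    have hvx : val v (algebraMap F (v.adicCompletion F) x) ≤ 1 := by
      rw [val_algebraMap]
      exact (hR x).mp hx v hv
    obtain ⟨r, hr⟩ := exists_val_sub_lt _ hvx
    rw [← map_sub, val_algebraMap] at hr
    obtain ⟨b, hb, hb'⟩ := hB.ex (-r)
    have hb'' : v.valuation F ((r : F) + b) < 1 := by
      have h1 : v.valuation F (algebraMap (𝓞 F) F (-r - b)) < 1 :=
        (v.valuation_lt_one_iff_mem (K := F) _).mpr hb'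
      have h2 : algebraMap (𝓞 F) F (-r - b) = -((r : F) + b) := by
        rw [map_sub, map_neg]
        ring
      rw [h2, Valuation.map_neg] at h1
      exact h1
    refine ⟨-(b : F), ⟨Finset.mem_image_of_mem _ hb, (key x hx b).mpr ?_⟩, ?_⟩
    · have e : x + b = (x - algebraMap (𝓞 F) F r) + ((r : F) + b) := by
        ring
      rw [e]
      exact Valuation.map_add_lt _ hr hb''
    · rintro _ ⟨hy, hy'⟩
      obtain ⟨c, hc, rfl⟩ := Finset.mem_image.mp hy
      have h1 := (key x hx c).mp hy'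
      have h2 : v.valuation F (algebraMap (𝓞 F) F (c - b)) < 1 := by
        have e : algebraMap (𝓞 F) F (c - b) =
            (x + c) - (x - algebraMap (𝓞 F) F r + ((r : F) + b)) := by
          rw [map_sub]
          ring
        rw [e]
        exact Valuation.map_sub_lt _ h1 (Valuation.map_add_lt _ hr hb'')
      have h3 := hB.uniq c hc b hb ((v.valuation_lt_one_iff_mem (K := F) _).mp h2)
      rw [h3]

/-! ### The Hecke operators -/

theorem mk_inv_eq {v : HeightOneSpectrum (𝓞 F)}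
    {H : Subgroup (GL (Fin 2) (v.adicCompletion F))} {α β : GL (Fin 2) F} {π : Fˣ}
    (h : α * β = GeneralLinearGroup.scalar (Fin 2) π) :
    Cos.mk H (gmap v α⁻¹) = Cos.mk H (gmap v β) := by
  have h1 : β = GeneralLinearGroup.scalar (Fin 2) π * α⁻¹ := by
    rw [scalar_mul_comm, ← h, inv_mul_cancel_left]
  rw [h1, map_mul, gmap_scalar, Cos.mk_scalar_mul]

theorem gl2_mem_KO {w : HeightOneSpectrum (𝓞 F)} {a b c d : F} (h : a * d - b * c ≠ 0)
    (ha : w.valuation F a ≤ 1) (hb : w.valuation F b ≤ 1) (hc : w.valuation F c ≤ 1)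
    (hd : w.valuation F d ≤ 1) (hdet : w.valuation F (a * d - b * c) = 1) :
    gmap w (gl2 a b c d h) ∈ KO w := by
  refine ⟨fun i j => ?_, ?_⟩
  · change Valued.v (gmap w (gl2 a b c d h) i j) ≤ 1
    rw [gmap_apply]
    refine (val_algebraMap w _).trans_le ?_
    fin_cases i <;> fin_cases j <;> simpa
  · rw [gmap_det, Units.coe_map]
    refine (val_algebraMap w _).trans ?_
    rw [GeneralLinearGroup.val_det_apply, coe_gl2, Matrix.det_fin_two_of]
    exact hdet

theorem gmap_gl2 {v : HeightOneSpectrum (𝓞 F)} {a b c d : F} (h : a * d - b * c ≠ 0) (h') :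
    gmap v (gl2 a b c d h) = gl2 (algebraMap F (v.adicCompletion F) a)
      (algebraMap F (v.adicCompletion F) b) (algebraMap F (v.adicCompletion F) c)
      (algebraMap F (v.adicCompletion F) d) h' := by
  refine Units.ext (Matrix.ext fun i j => ?_)
  fin_cases i <;> fin_cases j <;> rfl

/-- the sum over the neighbours of `γ • d` -/
theorem finsum_nbr_smul {f : Xi F × Lvl.D U → ℂ} (hf : ∀ (γ : GL (Fin 2) F) z, f (γ • z) = f z)
    (v : HeightOneSpectrum (𝓞 F)) (γ : GL (Fin 2) F) (x : Xi F) (d : Lvl.D U) :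
    ∑ᶠ (d' : Lvl.D U) (_ : Nbr U v (γ • d) d'), f (x, d') =
      ∑ᶠ (d' : Lvl.D U) (_ : Nbr U v d d'), f (γ⁻¹ • x, d') := by
  rw [← finsum_comp_equiv (MulAction.toPerm γ)]
  refine finsum_congr fun d' => ?_
  simp only [MulAction.toPerm_apply, nbr_smul]
  refine finsum_congr fun _ => ?_
  have := hf γ (γ⁻¹ • x, d')
  rw [Prod.smul_mk, smul_inv_smul] at this
  exact this

theorem f_upd [DecidableEq (HeightOneSpectrum (𝓞 F))] (hU : OffS S U)
    {f : Xi F × Lvl.D U → ℂ} (hf : ∀ (γ : GL (Fin 2) F) z, f (γ • z) = f z)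
    {v : HeightOneSpectrum (𝓞 F)} (hv : v ∉ S) {α β : GL (Fin 2) F} {π : Fˣ}
    (hαβ : α * β = GeneralLinearGroup.scalar (Fin 2) π)
    (hα : ∀ w ∉ S, w ≠ v → gmap w α ∈ KO w) (x : Xi F) (g : GL (Fin 2) F) :
    f (x, HK.upd (pF S U g) v (Cos.mk (U.U v) (gmap v β))) = f (α • x, pF S U (α * g)) := by
  rw [← mk_inv_eq hαβ, ← inv_smul_pF hU hv (fun w hw hwv => Subgroup.mem_sup_left (hα w hw hwv)),
    ← hf α (x, α⁻¹ • pF S U (α * g)), Prod.smul_mk, smul_inv_smul]

/-- **the sum over the neighbours of `pF g` by matrices of `GL₂(F)`**. -/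
theorem finsum_nbr_pF [DecidableEq F] (hU : OffS S U) {f : Xi F × Lvl.D U → ℂ}
    (hf : ∀ (γ : GL (Fin 2) F) z, f (γ • z) = f z)
    {v : HeightOneSpectrum (𝓞 F)} (hv : v ∉ S) {π : F} (h0 : π ≠ 0)
    (hπ : v.valuation F π = exp (-1 : ℤ)) (hπ' : ∀ w ∉ S, w ≠ v → w.valuation F π = 1)
    {B : Finset (𝓞 F)} (hB : IsRep v B) (x : Xi F) (g : GL (Fin 2) F) :
    ∑ᶠ (d' : Lvl.D U) (_ : Nbr U v (pF S U g) d'), f (x, d') =
      ∑ b ∈ B.image (fun b : 𝓞 F => -(b : F)),
        f (gl2 1 b 0 π (by simpa using h0) • x, pF S U (gl2 1 b 0 π (by simpa using h0) * g)) +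
        f (gl2 π 0 0 1 (by simpa using h0) • x, pF S U (gl2 π 0 0 1 (by simpa using h0) * g)) := by
  classical
  have hval : ∀ w ∉ S, w ≠ v → w.valuation F π = 1 := hπ'
  have h0' : algebraMap F (v.adicCompletion F) π ≠ 0 := by
    rwa [Ne, map_eq_zero]
  rw [finsum_nbr (hU v hv) (Datum.ofRep π hπ B hB) (g := 1) (pF_notMem hv g)
    (fun d' => f (x, d'))]
  congr 1
  · rw [Finset.sum_image fun b _ b' _ h => by
      exact IsFractionRing.injective (𝓞 F) F (neg_injective h)]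
    change ∑ b ∈ B.map _, _ = _
    rw [Finset.sum_map]
    refine Finset.sum_congr rfl fun b _ => ?_
    have h1 : gl2 1 (-(b : F)) 0 π (by simpa using h0) * gl2 π b 0 1 (by simpa using h0) =
        GeneralLinearGroup.scalar (Fin 2) (Units.mk0 π h0) := by
      rw [gl2_mul]
      refine Units.ext (Matrix.ext fun i j => ?_)
      rw [coe_gl2, GeneralLinearGroup.coe_scalar]
      fin_cases i <;> fin_cases j <;> simp
    rw [one_mul]
    have h2 : (Datum.ofRep π hπ B hB).nt 1 (algebraMap F (v.adicCompletion F)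
        (algebraMap (𝓞 F) F b)) = gmap v (gl2 π b 0 1 (by simpa using h0)) := by
      rw [Datum.nt, gmap_gl2 _ (by simpa using h0')]
      congr 1
      exact pow_one _
    refine (congrArg (fun y => f (x, HK.upd (pF S U g) v (Cos.mk (U.U v) y))) h2).trans ?_
    refine f_upd hU hf hv h1 (fun w hw hwv => gl2_mem_KO _ ?_ ?_ ?_ ?_ ?_) x g
    · rw [map_one]
    · rw [Valuation.map_neg]
      exact integer_mem_OS S b w hw
    · rw [map_zero]
      exact zero_le
    · exact (hval w hw hwv).le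
    · rw [one_mul, mul_zero, sub_zero]
      exact hval w hw hwv
  · have h1 : gl2 π 0 0 1 (by simpa using h0) * gl2 1 0 0 π (by simpa using h0) =
        GeneralLinearGroup.scalar (Fin 2) (Units.mk0 π h0) := by
      rw [gl2_mul]
      refine Units.ext (Matrix.ext fun i j => ?_)
      rw [coe_gl2, GeneralLinearGroup.coe_scalar]
      fin_cases i <;> fin_cases j <;> simp
    rw [one_mul]
    have h2 : (Datum.ofRep π hπ B hB).dg = gmap v (gl2 1 0 0 π (by simpa using h0)) := by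
      rw [Datum.dg, gmap_gl2 _ (by simpa using h0')]
      congr 1
    rw [h2]
    refine f_upd hU hf hv h1 (fun w hw hwv => gl2_mem_KO _ ?_ ?_ ?_ ?_ ?_) x g
    · exact (hval w hw hwv).le
    · rw [map_zero]
      exact zero_le
    · rw [map_zero]
      exact zero_le
    · rw [map_one]
    · rw [mul_one, mul_zero, sub_zero]
      exact hval w hw hwv

/-! ### The archimedean place -/

omit [NumberField F] in
theorem smul_upd (γ : GL (Fin 2) F) (x : Xi F) (w : InfinitePlace F) (Q : H3) :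
    γ • x.upd w Q =
      (γ • x).upd w (GeneralLinearGroup.map (n := Fin 2) w.embedding γ • Q) := by
  funext w'
  rw [Xi.smul_apply]
  unfold Xi.upd
  by_cases h : w' = w
  · subst h
    rw [if_pos rfl, if_pos rfl]
  · rw [if_neg h, if_neg h, Xi.smul_apply]

omit [NumberField F] in
/-- the radial integrals at a translated point -/
theorem integral_radial_smul (φ : Xi F → ℂ) (k : ℝ → ℂ) (γ : GL (Fin 2) F) (x : Xi F)
    (w : InfinitePlace F) :
    ∫ Q : H3, k (cu (x w) Q) * φ (γ • x.upd w Q) =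
      ∫ Q : H3, k (cu ((γ • x) w) Q) * φ ((γ • x).upd w Q) := by
  rw [← integral_smul_eq (fun Q => k (cu ((γ • x) w) Q) * φ ((γ • x).upd w Q))
    (GeneralLinearGroup.map (n := Fin 2) w.embedding γ)]
  refine integral_congr_ae (Filter.Eventually.of_forall fun Q => ?_)
  simp only [smul_upd, Xi.smul_apply, cu_smul]

/-! ### The main theorem -/

open B11 SAd

variable {N m : ℕ} {x : HeightOneSpectrum (𝓞 F) → ℝ} {Φ : Xi F → GL (Fin 2) F → ℂ}

theorem mem_RS_iff_OS (hN : N ≠ 0) (hS : ∀ v, v ∈ S ↔ (N : 𝓞 F) ∈ v.asIdeal) (t : F) :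
    t ∈ RS F N ↔ t ∈ OS S := by
  have : NeZero N := ⟨hN⟩
  rw [mem_RS_iff]
  exact ⟨fun h v hv => h v fun h' => hv ((hS v).mpr h'),
    fun h v hv => h v fun h' => hv ((hS v).mp h')⟩

/-- entries of the matrices in the principal level at `S`. -/
theorem exists_AS_of_mem_Kn (hN : N ≠ 0) (hS : ∀ v, v ∈ S ↔ (N : 𝓞 F) ∈ v.asIdeal) {n : ℕ}
    (hn : ∀ v ∈ S, exp (-(n : ℤ)) ≤ v.valuation F ((N : F) ^ m)) {κ : GL (Fin 2) F}
    (hκ : ∀ v ∈ S, gmap v κ ∈ Kn (vF v) (exp (-(n : ℤ)))) (i j : Fin 2) :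
    ∃ t ∈ AS F N, κ i j - (1 : Matrix (Fin 2) (Fin 2) F) i j = (N : F) ^ m * t := by
  have : NeZero N := ⟨hN⟩
  have h0 : ((N : F) ^ m) ≠ 0 := pow_ne_zero _ (Nat.cast_ne_zero.mpr hN)
  refine ⟨((N : F) ^ m)⁻¹ * (κ i j - (1 : Matrix (Fin 2) (Fin 2) F) i j), ?_, by
    rw [mul_inv_cancel_left₀ h0]⟩
  rw [mem_AS_iff]
  intro v hv
  have hvS := (hS v).mpr hv
  have h1 := (mem_Kn.mp (hκ v hvS)).2 i j
  have h2 : ((gmap v κ : Matrix (Fin 2) (Fin 2) (v.adicCompletion F)) - 1) i j =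
      algebraMap F (v.adicCompletion F) (κ i j - (1 : Matrix (Fin 2) (Fin 2) F) i j) := by
    rw [Matrix.sub_apply, map_sub]
    congr 1
    rw [Matrix.one_apply, Matrix.one_apply]
    split_ifs
    · exact (map_one _).symm
    · exact (map_zero _).symm
  rw [h2] at h1
  have h3 : v.valuation F (κ i j - (1 : Matrix (Fin 2) (Fin 2) F) i j) ≤ exp (-(n : ℤ)) :=
    (val_algebraMap v _).symm.trans_le h1
  have h4 : v.valuation F ((N : F) ^ m) ≠ 0 := (Valuation.ne_zero_iff _).mpr h0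
  rw [map_mul, map_inv₀]
  calc (v.valuation F ((N : F) ^ m))⁻¹ * v.valuation F (κ i j - (1 : Matrix (Fin 2) (Fin 2) F) i j)
      ≤ (v.valuation F ((N : F) ^ m))⁻¹ * v.valuation F ((N : F) ^ m) :=
        mul_le_mul_right (h3.trans (hn v hvS)) _
    _ = 1 := inv_mul_cancel₀ h4

theorem exists_exp_le (hN : N ≠ 0) (S : Finset (HeightOneSpectrum (𝓞 F))) (m : ℕ) :
    ∃ n₀ : ℕ, ∀ n ≥ n₀, ∀ v ∈ S, exp (-(n : ℤ)) ≤ v.valuation F ((N : F) ^ m) := by
  classical
  have h0 : ((N : F) ^ m) ≠ 0 := pow_ne_zero _ (Nat.cast_ne_zero.mpr hN)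
  choose r hr using fun v : HeightOneSpectrum (𝓞 F) =>
    exists_le_exp (v.valuation F ((N : F) ^ m))⁻¹
  refine ⟨S.sup r, fun n hn v hv => ?_⟩
  have h1 := Finset.le_sup (f := r) hv
  have h2 : v.valuation F ((N : F) ^ m) ≠ 0 := (Valuation.ne_zero_iff _).mpr h0
  rw [WithZero.exp_neg]
  refine inv_le_of_inv_le₀ (zero_lt_iff.mpr h2) ((hr v).trans ?_)
  rw [exp_le_exp]
  omega

theorem desc0_of_isFormA (h : IsFormA F N m x Φ)
    (hS : ∀ v, v ∈ S ↔ (N : 𝓞 F) ∈ v.asIdeal) {n : ℕ}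
    (hn : ∀ v ∈ S, exp (-(n : ℤ)) ≤ v.valuation F ((N : F) ^ m)) :
    Desc0 S (Lev.cong S n) Φ where
  center := h.center
  left δ P g := by
    refine h.left _ (fun i j => ?_) (fun i j => ?_) P g
    · rw [mem_RS_iff_OS h.N_ne hS]
      exact (δ i j).2
    · rw [mem_RS_iff_OS h.N_ne hS, ← map_inv]
      exact (δ⁻¹ i j).2
  right κ hκ P g := by
    have h1 : ∀ v ∈ S, gmap v κ ∈ Kn (vF v) (exp (-(n : ℤ))) := fun v hv => by
      have := hκ v hv
      rwa [Lev.cong_mem hv] at this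
    refine h.right κ (exists_AS_of_mem_Kn h.N_ne hS hn h1)
      (exists_AS_of_mem_Kn h.N_ne hS hn fun v hv => ?_) P g
    rw [map_inv]
    exact inv_mem (h1 v hv)

/-- **The form on `X_∞ × D U`** attached to a form of block B11, for every principal level at `S`
which is small enough. -/
theorem exists_isForm0 [IsTotallyComplex F] (h : IsFormA F N m x Φ)
    (hS : ∀ v, v ∈ S ↔ (N : 𝓞 F) ∈ v.asIdeal) (hcl : CFT.Global.ClTrivial S) :
    ∃ n₀ : ℕ, ∀ n ≥ n₀, ∃ f : Xi F × Lvl.D (Lev.cong S n) → ℂ,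
      IsForm0 F (Lev.cong S n) {v | (N : 𝓞 F) ∈ v.asIdeal} x f ∧
        ∀ P g, f (P, pF S (Lev.cong S n) g) = Φ P g := by
  classical
  obtain ⟨n₀, hn₀⟩ := exists_exp_le h.N_ne S m
  refine ⟨n₀, fun n hn => ?_⟩
  have hU : OffS S (Lev.cong S n) := fun v hv => Lev.cong_notMem hv
  obtain ⟨f, hf, hfΦ⟩ := (desc0_of_isFormA h hS (hn₀ n hn)).exists_f hcl hU
  -- the value at a general point
  have hval : ∀ (P : Xi F) (γ g : GL (Fin 2) F),
      f (P, γ • pF S (Lev.cong S n) g) = Φ (γ⁻¹ • P) g := by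
    intro P γ g
    rw [← hfΦ, ← hf γ (γ⁻¹ • P, pF S (Lev.cong S n) g), Prod.smul_mk, smul_inv_smul]
  refine ⟨f, ⟨?_, ?_, ?_, hf, ?_, ?_, ?_, ?_⟩, hfΦ⟩
  · refine S.finite_toSet.subset fun v hv => ?_
    exact (hS v).mpr hv
  · intro v hv
    exact hU v fun hv' => hv ((hS v).mp hv')
  · intro d
    obtain ⟨γ, g, rfl⟩ := exists_smul_pF hcl hU d
    simp only [hval]
    exact (h.cont g).comp (continuous_const_smul γ⁻¹)
  · intro d
    obtain ⟨γ, g, rfl⟩ := exists_smul_pF hcl hU d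
    simp only [hval]
    obtain ⟨C, A, hC⟩ := h.growth g
    have hm : Mod fun P => Φ P g := by
      refine ⟨|C|, A, abs_nonneg _, fun P => (hC P).trans ?_⟩
      rw [cj, ← Finset.prod_pow]
      exact mul_le_mul_of_nonneg_right (le_abs_self C)
        (Finset.prod_nonneg fun w _ => pow_nonneg (cu_pos _ _).le _)
    obtain ⟨C', A', -, hC'⟩ := hm.smul γ⁻¹
    refine ⟨C', A', fun P => (hC' P).trans_eq ?_⟩
    rw [cj, ← Finset.prod_pow]
  · rintro v hv ⟨P, d⟩
    have hvS : v ∉ S := fun h' => hv ((hS v).mp h')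
    obtain ⟨γ, g, rfl⟩ := exists_smul_pF hcl hU d
    obtain ⟨π, hπ, hπ'⟩ := exists_pi hcl v hvS
    obtain ⟨B, -, hB⟩ := exists_isRep v
    have hRS := mem_RS_iff_OS h.N_ne hS
    change ∑ᶠ (d' : Lvl.D _) (_ : Nbr _ v (γ • pF S (Lev.cong S n) g) d'), f (P, d') = _
    rw [finsum_nbr_smul hf, finsum_nbr_pF hU hf hvS π.ne_zero hπ hπ' hB, hval]
    simp only [hfΦ]
    refine h.hecke v (fun h' => hv h') π π.ne_zero (fun t ht => ?_) ?_ _
      (isReps_of_isRep hRS hvS hπ hπ' hB) (γ⁻¹ • P) g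
    · rw [← exists_mul_iff hvS hπ hπ' ((hRS t).mp ht)]
      exact exists_congr fun t' => and_congr_left fun _ => hRS t'
    · rw [hRS]
      intro w hw
      by_cases hwv : w = v
      · rw [hwv, hπ, ← exp_zero, exp_le_exp]
        norm_num
      · exact (hπ' w hw hwv).le
  · rintro w k hk ⟨P, d⟩
    obtain ⟨γ, g, rfl⟩ := exists_smul_pF hcl hU d
    simp only [hval]
    rw [integral_radial_smul (fun Q => Φ Q g) k γ⁻¹ P w]
    exact h.radial w k hk _ g
  · obtain ⟨P, g, hne⟩ := h.ne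
    exact ⟨(P, pF S _ g), by rwa [hfΦ]⟩

/-- The same with the hypothesis in the form of `TSys.clL`. -/
theorem exists_isForm0_of [IsTotallyComplex F] (h : IsFormA F N m x Φ)
    (hcl : ∀ S : Finset (HeightOneSpectrum (𝓞 F)),
      (∀ v, v ∈ S ↔ v ∈ {v : HeightOneSpectrum (𝓞 F) | (N : 𝓞 F) ∈ v.asIdeal}) →
        CFT.Global.ClTrivial S) :
    ∃ (U : Lev F) (f : Xi F × Lvl.D U → ℂ),
      IsForm0 F U {v | (N : 𝓞 F) ∈ v.asIdeal} x f := by
  have : NeZero N := ⟨h.N_ne⟩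
  obtain ⟨n₀, hn₀⟩ := exists_isForm0 h (S := pl F N) (fun v => mem_pl)
    (hcl _ fun v => mem_pl)
  obtain ⟨f, hf, -⟩ := hn₀ n₀ le_rfl
  exact ⟨_, f, hf⟩

end Fermat.Agent.LT.Adapt

end
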