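import Mathlib
import Fermat.Agent.LT.Kappa.Coef

/-!
# The mean over `A ⧸ Λ` as a mean over the infinite part

`A` a topological abelian group, `Λ` a cocompact subgroup, `i : V → A`, `N` a subgroup with
`A = i(V) + Λ + N`.  The mean of a continuous function on `A` which is invariant under `Λ` and `N`
is computed by any probability measure on `V` which is invariant on `z ↦ f (i z)`.
-/

set_option autoImplicit false

noncomputable section

open MeasureTheory Topology

namespace Fermat.Agent.LT.Adapt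

open Kap

variable {A : Type*} [AddCommGroup A] [TopologicalSpace A] [IsTopologicalAddGroup A]
  {Λ : AddSubgroup A} [CompactSpace (A ⧸ Λ)]
  {V : Type*} [AddCommGroup V] [TopologicalSpace V] [MeasurableSpace V] [BorelSpace V]
  [SecondCountableTopology V]

theorem exists_bound_of_per {f : A → ℂ} (hf : Per Λ f) (hc : Continuous f) :
    ∃ C : ℝ, ∀ t, ‖f t‖ ≤ C := by
  obtain ⟨C, hC⟩ := IsCompact.exists_bound_of_continuousOn (isCompact_univ (X := A ⧸ Λ))
    (continuous_lft hf hc).continuousOn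
  refine ⟨C, fun t => ?_⟩
  have := hC (t : A ⧸ Λ) (Set.mem_univ _)
  rwa [lft_mk hf] at this

/-- **The mean over `A ⧸ Λ` is a mean over `V`.** -/
theorem mean_eq_integral {f : A → ℂ} (hf : Per Λ f) (hc : Continuous f) (N : AddSubgroup A)
    (hN : Per N f) (i : V →+ A) (hi : Continuous i)
    (hcov : ∀ a : A, ∃ v : V, ∃ l ∈ Λ, ∃ n ∈ N, a = i v + l + n)
    (P : Measure V) [IsProbabilityMeasure P]
    (hP : ∀ v : V, ∫ z, f (i (v + z)) ∂P = ∫ z, f (i z) ∂P) :
    mean Λ f = ∫ z, f (i z) ∂P := by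
  letI : MeasurableSpace (A ⧸ Λ) := borel _
  haveI : BorelSpace (A ⧸ Λ) := ⟨rfl⟩
  obtain ⟨C, hC⟩ := exists_bound_of_per hf hc
  have hcont : Continuous fun p : (A ⧸ Λ) × V => lft Λ f (p.1 + ((i p.2 : A) : A ⧸ Λ)) :=
    (continuous_lft hf hc).comp (continuous_fst.add
      (QuotientAddGroup.continuous_mk.comp (hi.comp continuous_snd)))
  have hint : Integrable (Function.uncurry fun (q : A ⧸ Λ) (z : V) =>
      lft Λ f (q + ((i z : A) : A ⧸ Λ))) ((qm Λ).prod P) := by
    refine Integrable.of_bound (C := C) hcont.aestronglyMeasurable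
      (Filter.Eventually.of_forall fun p => ?_)
    obtain ⟨q, z⟩ := p
    obtain ⟨t, rfl⟩ := QuotientAddGroup.mk_surjective q
    change ‖lft Λ f ((t : A ⧸ Λ) + ((i z : A) : A ⧸ Λ))‖ ≤ C
    rw [← QuotientAddGroup.mk_add, lft_mk hf]
    exact hC _
  have h1 := integral_integral_swap hint
  -- the inner integral over `V`
  have h2 : ∀ q : A ⧸ Λ, ∫ z, lft Λ f (q + ((i z : A) : A ⧸ Λ)) ∂P = ∫ z, f (i z) ∂P := by
    intro q
    obtain ⟨t, rfl⟩ := QuotientAddGroup.mk_surjective q
    obtain ⟨v, l, hl, n, hn, rfl⟩ := hcov t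
    rw [← hP v]
    refine integral_congr_ae (Filter.Eventually.of_forall fun z => ?_)
    change lft Λ f (((i v + l + n : A) : A ⧸ Λ) + ((i z : A) : A ⧸ Λ)) = f (i (v + z))
    rw [← QuotientAddGroup.mk_add, lft_mk hf]
    have e : i v + l + n + i z = (i (v + z) + l) + n := by rw [map_add]; abel
    rw [e, hN _ n hn, hf _ l hl]
  -- the inner integral over `A ⧸ Λ`
  have h3 : ∀ z : V, ∫ q, lft Λ f (q + ((i z : A) : A ⧸ Λ)) ∂(qm Λ) = mean Λ f := fun z =>
    integral_add_right_eq_self (μ := qm Λ) (lft Λ f) ((i z : A) : A ⧸ Λ)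
  simp_rw [h2, h3] at h1
  rw [integral_const, integral_const, probReal_univ, probReal_univ, one_smul, one_smul] at h1
  exact h1.symm

end Fermat.Agent.LT.Adapt
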