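import Mathlib
import Fermat.Agent.LT.Adapt.Fin
import Fermat.Agent.LT.Adapt.Mean
import Fermat.Agent.LT.Aleph.Mean
import Fermat.Agent.LT.Level.IsLevel

/-!
# Cuspidality on `X_∞ × D U` and on `X_∞ × GL₂(R_f)`

* `mean_toKap` : the mean of `t ↦ toKap f (n(t) p)` over `A ⧸ O_S` is the mean of
  `z ↦ f (n(z) x, d)` over `ℂⁿ ⧸ m 𝓞`;
* `IsCusp.wh_zero_toKap` : the constant term of a cuspidal function vanishes;
* `isCusp_of_wh_zero` : the converse.
-/

set_option autoImplicit false

noncomputable section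

open NumberField IsDedekindDomain Matrix WithZero HeightOneSpectrum MeasureTheory Module
open scoped WithZero Topology Pointwise ENNReal

namespace Fermat.Agent.LT.Adapt

open Loc Lvl Kap

/-! ### Parametrised integrals over bounded sets -/

theorem continuousOn_setIntegral {X E : Type*} [TopologicalSpace X] [LocallyCompactSpace X]
    [FirstCountableTopology X]
    [NormedAddCommGroup E] [NormedSpace ℝ E] [FiniteDimensional ℝ E] [MeasurableSpace E]
    [BorelSpace E] (μ : Measure E) [IsLocallyFiniteMeasure μ] {s : Set E} (hs : MeasurableSet s)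
    (hb : Bornology.IsBounded s) {U : Set X} (hU : IsOpen U) {φ : X → E → ℂ}
    (hφ : ContinuousOn (Function.uncurry φ) (U ×ˢ Set.univ)) :
    ContinuousOn (fun x => ∫ z in s, φ x z ∂μ) U := by
  intro x₀ hx₀
  refine ContinuousAt.continuousWithinAt ?_
  have hcl : IsCompact (closure s) := hb.isCompact_closure
  obtain ⟨K, hK, hxK, hKU⟩ := exists_compact_subset hU hx₀
  have hcomp : IsCompact (K ×ˢ closure s) := hK.prod hcl
  obtain ⟨C, hC⟩ := hcomp.exists_bound_of_continuousOn
    (hφ.mono (Set.prod_mono hKU (Set.subset_univ _)))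
  have hfin : IsFiniteMeasure (μ.restrict s) := by
    refine ⟨?_⟩
    rw [Measure.restrict_apply_univ]
    exact (measure_mono subset_closure).trans_lt hcl.measure_lt_top
  have hKn : ∀ᶠ x in 𝓝 x₀, x ∈ K := mem_interior_iff_mem_nhds.mp hxK
  refine continuousAt_of_dominated (bound := fun _ => C) ?_ ?_ (integrable_const C) ?_
  · filter_upwards [hKn] with x hx
    have h1 : Continuous (φ x) := by
      rw [← continuousOn_univ]
      exact hφ.comp (by fun_prop : ContinuousOn (fun z : E => (x, z)) Set.univ)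
        fun z _ => ⟨hKU hx, Set.mem_univ _⟩
    exact h1.aestronglyMeasurable
  · filter_upwards [hKn] with x hx
    refine (ae_restrict_mem hs).mono fun z hz => ?_
    exact hC (x, z) ⟨hx, subset_closure hz⟩
  · refine Filter.Eventually.of_forall fun z => ?_
    have h1 : ContinuousAt (Function.uncurry φ) (x₀, z) :=
      hφ.continuousAt ((hU.prod isOpen_univ).mem_nhds ⟨hx₀, Set.mem_univ _⟩)
    exact h1.comp (f := fun x : X => (x, z)) (by fun_prop)

/-! ### The fundamental domain `fdom F m` -/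

variable {F : Type*} [Field F] [NumberField F] [IsTotallyComplex F]

/-- the basis `m • embBasis` -/
def mBasis (F : Type*) [Field F] [NumberField F] [IsTotallyComplex F] (m : ℕ) (hm : m ≠ 0) :
    Basis (Module.Free.ChooseBasisIndex ℤ (𝓞 F)) ℝ (InfinitePlace F → ℂ) :=
  (embBasis F).map (LinearEquiv.smulOfNeZero ℝ (InfinitePlace F → ℂ) (m : ℝ)
    (by exact_mod_cast hm))

theorem fdom_eq (m : ℕ) (hm : m ≠ 0) : fdom F m = ZSpan.fundamentalDomain (mBasis F m hm) := by
  rw [mBasis, ← ZSpan.map_fundamentalDomain]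
  rfl

theorem measurableSet_fdom (m : ℕ) (hm : m ≠ 0) : MeasurableSet (fdom F m) := by
  rw [fdom_eq m hm]
  exact ZSpan.fundamentalDomain_measurableSet _

theorem isBounded_fdom (m : ℕ) (hm : m ≠ 0) : Bornology.IsBounded (fdom F m) := by
  rw [fdom_eq m hm]
  exact ZSpan.fundamentalDomain_isBounded _

theorem vol_fdom_ne_zero (m : ℕ) (hm : m ≠ 0) : volume (fdom F m) ≠ 0 := by
  rw [fdom_eq m hm]
  exact Aleph.measure_fd_ne_zero volume _

theorem vol_fdom_ne_top (m : ℕ) (hm : m ≠ 0) : volume (fdom F m) ≠ ∞ := by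
  rw [fdom_eq m hm]
  exact Aleph.measure_fd_ne_top volume _

/-- periodicity under `m 𝓞 F` -/
def PerM {α : Type*} (m : ℕ) (g : (InfinitePlace F → ℂ) → α) : Prop :=
  ∀ (a : 𝓞 F) (z : InfinitePlace F → ℂ), g (z + emb F ((m : F) * a)) = g z

theorem PerM.isPer {α : Type*} {m : ℕ} (hm : m ≠ 0) {g : (InfinitePlace F → ℂ) → α}
    (hg : PerM m g) : Aleph.IsPer (mBasis F m hm) g := by
  intro l hl z
  have h1 : Set.range (mBasis F m hm) =
      ((LinearEquiv.smulOfNeZero ℝ (InfinitePlace F → ℂ) (m : ℝ)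
        (by exact_mod_cast hm)).toLinearMap.restrictScalars ℤ) '' Set.range (embBasis F) := by
    rw [← Set.range_comp]
    rfl
  rw [h1, ← Submodule.map_span] at hl
  obtain ⟨y, hy, rfl⟩ := hl
  obtain ⟨a, rfl⟩ := (mem_span_embBasis F).mp hy
  have h2 : (((LinearEquiv.smulOfNeZero ℝ (InfinitePlace F → ℂ) (m : ℝ)
        (by exact_mod_cast hm)).toLinearMap.restrictScalars ℤ) (emb F (a : F))) =
      emb F ((m : F) * a) := by
    rw [map_mul, map_natCast]
    change (m : ℝ) • emb F (a : F) = _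
    funext w
    simp
  rw [h2]
  exact hg a z

theorem PerM.setIntegral_add {m : ℕ} (hm : m ≠ 0) {g : (InfinitePlace F → ℂ) → ℂ}
    (hg : PerM m g) (t : InfinitePlace F → ℂ) :
    ∫ z in fdom F m, g (z + t) = ∫ z in fdom F m, g z := by
  rw [fdom_eq m hm]
  exact (hg.isPer hm).integral_add volume t

/-! ### The unipotent action -/

omit [NumberField F] [IsTotallyComplex F] in
theorem nn_emb_smul (b : F) (x : Xi F) :
    (nn (emb F b) : GL (Fin 2) (Rinf F)) • x = (nb b : GL (Fin 2) F) • x := by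
  rw [← map_inf_smul]
  congr 1
  apply Units.ext
  have h : ((GeneralLinearGroup.map (n := Fin 2) (algebraMap F (Rinf F)) (nb b) :
      GL (Fin 2) (Rinf F)) : Matrix (Fin 2) (Fin 2) (Rinf F)) =
      (!![1, b; 0, 1] : Matrix (Fin 2) (Fin 2) F).map (algebraMap F (Rinf F)) := rfl
  rw [h, Kap.coe_nn]
  ext i j : 1
  fin_cases i <;> fin_cases j
  · exact (map_one (algebraMap F (Rinf F))).symm
  · rfl
  · exact (map_zero (algebraMap F (Rinf F))).symm
  · exact (map_one (algebraMap F (Rinf F))).symm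

omit [NumberField F] [IsTotallyComplex F] in
theorem perM_toKap {D : Type*} [MulAction (GL (Fin 2) F) D] {f : Xi F × D → ℂ}
    (hf : ∀ (γ : GL (Fin 2) F) z, f (γ • z) = f z) {m : ℕ} {d : D}
    (hd : ∀ a : 𝓞 F, nb ((m : F) * a) • d = d) (x : Xi F) :
    PerM m fun z : Rinf F => f ((nn z : GL (Fin 2) (Rinf F)) • x, d) := by
  intro a z
  have h1 : (nn (z + emb F ((m : F) * a)) : GL (Fin 2) (Rinf F)) • x =
      (nb ((m : F) * a) : GL (Fin 2) F) • (nn z : GL (Fin 2) (Rinf F)) • x := by
    rw [← nn_emb_smul, ← mul_smul, nn_mul_nn, add_comm]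
  have h2 := hf (nb ((m : F) * a)) ((nn z : GL (Fin 2) (Rinf F)) • x, d)
  rw [Prod.smul_mk, hd a] at h2
  exact (congrArg (fun y => f (y, d)) h1).trans h2

variable {S : Finset (HeightOneSpectrum (𝓞 F))} {U : Lev F}

omit [IsTotallyComplex F] in
/-- a modulus for a point of `D U` -/
theorem exists_mod (d : D U) : ∃ m : ℕ, m ≠ 0 ∧ ∀ a : 𝓞 F, nb ((m : F) * a) • d = d := by
  obtain ⟨m, hm⟩ := exists_isMod F d
  exact ⟨m, hm.1, fun a => hm.nb_smul a.2⟩

variable (S U) in
/-- the unipotent elements at `S` which fix `g` -/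
def NS (g : GL (Fin 2) (Rf S)) : AddSubgroup (AS S) where
  carrier := {n | n.1 = 0 ∧ g⁻¹ * nn n.2 * g ∈ KS S U}
  zero_mem' := ⟨rfl, by
    change g⁻¹ * nn (0 : Rf S) * g ∈ KS S U
    rw [nn_zero, mul_one, inv_mul_cancel]
    exact one_mem _⟩
  add_mem' {a b} ha hb := by
    refine ⟨by rw [Prod.fst_add, ha.1, hb.1, add_zero], ?_⟩
    have := mul_mem ha.2 hb.2
    rw [Prod.snd_add, ← nn_mul_nn]
    convert this using 1
    group
  neg_mem' {a} ha := by
    refine ⟨by rw [Prod.fst_neg, ha.1, neg_zero], ?_⟩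
    have := inv_mem ha.2
    have h1 : (nn (-a.2) : GL (Fin 2) (Rf S)) = (nn a.2)⁻¹ := by
      rw [eq_inv_iff_mul_eq_one, nn_mul_nn, neg_add_cancel, nn_zero]
    rw [Prod.snd_neg, h1]
    convert this using 1
    group

/-- **The mean over `A ⧸ O_S` is a mean over `ℂⁿ ⧸ m 𝓞`.** -/
theorem mean_toKap (hU : OffS S U) {f : Xi F × D U → ℂ}
    (hf : ∀ (γ : GL (Fin 2) F) z, f (γ • z) = f z) (hc : ∀ d, Continuous fun x => f (x, d))
    (x : Xi F) (g : GL (Fin 2) (Rf S)) {m : ℕ} (hm : m ≠ 0)
    (hd : ∀ a : 𝓞 F, nb ((m : F) * a) • jS S U g = jS S U g) :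
    mean (diagOS S) (fun t : AS S => toKap S U f ((nn t : GL (Fin 2) (AS S)) • ⟨x, g⟩)) =
      (volume.real (fdom F m) : ℂ)⁻¹ *
        ∫ z in fdom F m, f ((nn z : GL (Fin 2) (Rinf F)) • x, jS S U g) := by
  have haut := isAut_toKap hU hf hc
  have hper : Per (diagOS S) (fun t : AS S =>
      toKap S U f ((nn t : GL (Fin 2) (AS S)) • (⟨x, g⟩ : Sp (Xi F) (Rf S)))) := haut.per ⟨x, g⟩
  set h : AS S → ℂ := fun t =>
      toKap S U f ((nn t : GL (Fin 2) (AS S)) • (⟨x, g⟩ : Sp (Xi F) (Rf S))) with hh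
  have hval : ∀ t : AS S, h t = f ((nn t.1 : GL (Fin 2) (Rinf F)) • x, jS S U (nn t.2 * g)) := by
    intro t
    rw [hh]
    simp only
    rw [nn_smul_mk, toKap_mk]
  have hN : Per (NS S U g) h := by
    rintro t n ⟨hn1, hn2⟩
    rw [hval, hval, Prod.fst_add, Prod.snd_add, hn1, add_zero]
    congr 2
    rw [jS_eq_iff]
    have : (nn (t.2 + n.2) * g)⁻¹ * (nn t.2 * g) = (g⁻¹ * nn n.2 * g)⁻¹ := by
      rw [← nn_mul_nn]
      group
    rw [this]
    exact inv_mem hn2
  have hcov : ∀ a : AS S, ∃ v : Rinf F, ∃ l ∈ diagOS S, ∃ n ∈ NS S U g,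
      a = (AddMonoidHom.inl (Rinf F) (Rf S)) v + l + n := by
    intro a
    have hopen : IsOpen {s : Rf S | jS S U (nn s * g) = jS S U (nn (0 : Rf S) * g)} :=
      (isLocallyConstant_jS U g).isOpen_fiber _
    have hopen2 : IsOpen {s : Rf S | a.2 - s ∈
        {s : Rf S | jS S U (nn s * g) = jS S U (nn (0 : Rf S) * g)}} :=
      hopen.preimage (continuous_const.sub continuous_id)
    obtain ⟨b, hb⟩ := (denseRange_OS_Rf S).exists_mem_open hopen2 ⟨a.2, by
      simp only [Set.mem_ofPred_eq, sub_self]⟩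
    refine ⟨a.1 - algebraMap F (Rinf F) (b : F), algebraMap (OS S) (AS S) b, ⟨b, rfl⟩,
      (0, a.2 - algebraMap (OS S) (Rf S) b), ⟨rfl, ?_⟩, ?_⟩
    · simp only [Set.mem_ofPred_eq] at hb
      rw [nn_zero, one_mul] at hb
      have := jS_eq_iff.mp hb.symm
      rwa [← mul_assoc] at this
    · refine Prod.ext ?_ ?_
      · change a.1 = (a.1 - algebraMap F (Rinf F) (b : F)) + algebraMap F (Rinf F) (b : F) + 0
        ring
      · change a.2 = 0 + algebraMap (OS S) (Rf S) b + (a.2 - algebraMap (OS S) (Rf S) b)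
        ring
  have hprob : IsProbabilityMeasure (ProbabilityTheory.cond (volume : Measure (Rinf F)) (fdom F m)) :=
    ProbabilityTheory.cond_isProbabilityMeasure_of_finite (vol_fdom_ne_zero m hm)
      (vol_fdom_ne_top m hm)
  have hi : ∀ z : Rinf F, h ((AddMonoidHom.inl (Rinf F) (Rf S)) z) =
      f ((nn z : GL (Fin 2) (Rinf F)) • x, jS S U g) := by
    intro z
    rw [hval]
    change f ((nn z : GL (Fin 2) (Rinf F)) • x, jS S U (nn (0 : Rf S) * g)) = _
    rw [nn_zero, one_mul]
  have hint : ∀ φ : Rinf F → ℂ, ∫ z, φ z ∂(ProbabilityTheory.cond (volume : Measure (Rinf F))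
      (fdom F m)) = (volume.real (fdom F m) : ℂ)⁻¹ * ∫ z in fdom F m, φ z := by
    intro φ
    rw [ProbabilityTheory.cond, integral_smul_measure, ENNReal.toReal_inv, Complex.real_smul]
    push_cast
    rfl
  have hpm := perM_toKap hf hd x
  rw [mean_eq_integral hper (haut.cont ⟨x, g⟩) (NS S U g) hN (AddMonoidHom.inl (Rinf F) (Rf S))
    (continuous_id.prodMk continuous_const) hcov
    (ProbabilityTheory.cond (volume : Measure (Rinf F)) (fdom F m)) ?_]
  · rw [hint]
    simp_rw [hi]
  · intro v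
    rw [hint, hint]
    simp_rw [hi]
    congr 1
    have := hpm.setIntegral_add hm v
    rw [← this]
    simp_rw [add_comm v]

/-! ### Cuspidal functions -/

omit [NumberField F] [IsTotallyComplex F] in
theorem continuous_pt_exp : Continuous fun p : (InfinitePlace F → ℝ) × (InfinitePlace F → ℂ) =>
    (pt p.2 fun w => Real.exp (p.1 w) : Xi F) := by
  refine continuous_pi fun w => H3.continuous_iff.mpr ⟨?_, ?_⟩
  · have : (fun p : (InfinitePlace F → ℝ) × (InfinitePlace F → ℂ) =>
        ((pt p.2 fun w => Real.exp (p.1 w) : Xi F) w).z) = fun p => p.2 w := by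
      funext p
      rw [pt_z fun w => Real.exp_pos _]
    rw [this]
    fun_prop
  · have : (fun p : (InfinitePlace F → ℝ) × (InfinitePlace F → ℂ) =>
        ((pt p.2 fun w => Real.exp (p.1 w) : Xi F) w).y) = fun p => Real.exp (p.1 w) := by
      funext p
      rw [pt_y fun w => Real.exp_pos _]
    rw [this]
    fun_prop

/-- the positive vectors -/
def posV (F : Type*) [Field F] : Set (InfinitePlace F → ℝ) := {y | ∀ w, 0 < y w}

omit [IsTotallyComplex F] in
theorem isOpen_posV : IsOpen (posV F) := by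
  have : posV F = Set.univ.pi fun _ : InfinitePlace F => Set.Ioi (0 : ℝ) := by
    ext y
    simp [posV]
  rw [this]
  exact isOpen_set_pi Set.finite_univ fun _ _ => isOpen_Ioi

omit [NumberField F] [IsTotallyComplex F] in
theorem continuousOn_pt :
    ContinuousOn (fun p : (InfinitePlace F → ℝ) × (InfinitePlace F → ℂ) => (pt p.2 p.1 : Xi F))
      (posV F ×ˢ Set.univ) := by
  have h1 : ContinuousOn (fun p : (InfinitePlace F → ℝ) × (InfinitePlace F → ℂ) =>
      ((fun w => Real.log (p.1 w), p.2) : (InfinitePlace F → ℝ) × (InfinitePlace F → ℂ)))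
      (posV F ×ˢ Set.univ) := by
    refine ContinuousOn.prodMk ?_ continuousOn_snd
    refine continuousOn_pi.mpr fun w => ?_
    refine ContinuousOn.log (by fun_prop) ?_
    rintro ⟨y, z⟩ ⟨hy, -⟩
    exact (hy w).ne'
  refine (continuous_pt_exp.comp_continuousOn h1).congr ?_
  rintro ⟨y, z⟩ ⟨hy, -⟩
  change (pt z y : Xi F) = pt z fun w => Real.exp (Real.log (y w))
  congr 1
  funext w
  exact (Real.exp_log (hy w)).symm

theorem continuousOn_ct {D : Type*} {f : Xi F × D → ℂ} {d : D} {m : ℕ} (hm : m ≠ 0)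
    (hc : Continuous fun x => f (x, d)) :
    ContinuousOn (fun y : InfinitePlace F → ℝ => ∫ z in fdom F m, f (pt z y, d)) (posV F) :=
  continuousOn_setIntegral volume (measurableSet_fdom m hm) (isBounded_fdom m hm) isOpen_posV
    (hc.comp_continuousOn continuousOn_pt)

/-- **The constant term of a continuous cuspidal function vanishes at every point.** -/
theorem _root_.Fermat.Agent.LT.IsCusp.integral_eq_zero {D : Type*} [MulAction (GL (Fin 2) F) D]
    {f : Xi F × D → ℂ} (h : IsCusp f) {d : D} (hc : Continuous fun x => f (x, d)) {m : ℕ}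
    (hm : m ≠ 0) (hd : ∀ a : 𝓞 F, nb ((m : F) * a) • d = d) {y : InfinitePlace F → ℝ}
    (hy : ∀ w, 0 < y w) : ∫ z in fdom F m, f (pt z y, d) = 0 := by
  have h1 : (fun y : InfinitePlace F → ℝ => ∫ z in fdom F m, f (pt z y, d)) =ᵐ[
      (volume : Measure (InfinitePlace F → ℝ)).restrict (posV F)] fun _ => (0 : ℂ) := by
    rw [Filter.EventuallyEq, ae_restrict_iff' isOpen_posV.measurableSet]
    exact h d m hm hd
  exact Measure.eqOn_open_of_ae_eq h1 isOpen_posV (continuousOn_ct hm hc) continuousOn_const hy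

/-- the same integral through the unipotent action -/
theorem _root_.Fermat.Agent.LT.IsCusp.integral_nn_eq_zero {D : Type*} [MulAction (GL (Fin 2) F) D]
    {f : Xi F × D → ℂ} (h : IsCusp f) (hf : ∀ (γ : GL (Fin 2) F) z, f (γ • z) = f z) {d : D}
    (hc : Continuous fun x => f (x, d)) {m : ℕ}
    (hm : m ≠ 0) (hd : ∀ a : 𝓞 F, nb ((m : F) * a) • d = d) (x : Xi F) :
    ∫ z in fdom F m, f ((nn z : GL (Fin 2) (Rinf F)) • x, d) = 0 := by
  have hx : x = pt (fun w => (x w).z) (fun w => (x w).y) := (pt_zy x).symm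
  have hy : ∀ w, 0 < (x w).y := fun w => (x w).y_pos
  have h0 := h.integral_eq_zero hc hm hd hy
  have hper : PerM m fun z : InfinitePlace F → ℂ => f (pt z (fun w => (x w).y), d) := by
    have h2 := perM_toKap hf hd (pt (0 : InfinitePlace F → ℂ) (fun w => (x w).y))
    intro a z
    have h3 := h2 a z
    simp only at h3
    rwa [nn_inf_smul_pt _ hy, nn_inf_smul_pt _ hy, zero_add, zero_add] at h3
  rw [← hper.setIntegral_add hm (fun w => (x w).z)] at h0
  have h4 : ∀ z : InfinitePlace F → ℂ, (nn z : GL (Fin 2) (Rinf F)) • x =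
      pt (z + fun w => (x w).z) (fun w => (x w).y) := by
    intro z
    conv_lhs => rw [hx]
    rw [nn_inf_smul_pt _ hy, add_comm]
  rw [← h0]
  exact congrArg _ (funext fun z => congrArg (fun x => f (x, d)) (h4 z))

theorem _root_.Fermat.Agent.LT.IsCusp.mean_toKap_eq_zero (hU : OffS S U) {f : Xi F × D U → ℂ}
    (hf : ∀ (γ : GL (Fin 2) F) z, f (γ • z) = f z) (hc : ∀ d, Continuous fun x => f (x, d))
    (h : IsCusp f) (x : Xi F) (g : GL (Fin 2) (Rf S)) :
    mean (diagOS S) (fun t : AS S => toKap S U f ((nn t : GL (Fin 2) (AS S)) • ⟨x, g⟩)) = 0 := by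
  obtain ⟨m, hm, hd⟩ := exists_mod (jS S U g)
  rw [mean_toKap hU hf hc x g hm hd, h.integral_nn_eq_zero hf (hc _) hm hd, mul_zero]

/-- **The constant term `wh 0` of a cuspidal function vanishes.** -/
theorem wh_zero_toKap (hU : OffS S U) {f : Xi F × D U → ℂ}
    (hf : ∀ (γ : GL (Fin 2) F) z, f (γ • z) = f z) (hc : ∀ d, Continuous fun x => f (x, d))
    (h : IsCusp f) {_ : CompactSpace (AS S ⧸ lat (OS S) (AS S))} (θ : AddChar (AS S) Circle)
    (p : Sp (Xi F) (Rf S)) : wh (OS S) θ (toKap S U f) 0 p = 0 := by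
  have h1 := h.mean_toKap_eq_zero hU hf hc p.i p.f
  unfold wh coef
  rw [← h1]
  refine Kap.mean_congr fun t => ?_
  rw [map_zero, neg_zero, ch_zero_left, one_mul]

/-! ### The converse -/

/-- multiplication by a unit of `F` on `ℂⁿ` -/
def mulC (c : Fˣ) : (InfinitePlace F → ℂ) ≃L[ℝ] (InfinitePlace F → ℂ) :=
  ContinuousLinearEquiv.mk
    { toFun := fun z => emb F (c : F) * z
      invFun := fun z => emb F ((c⁻¹ : Fˣ) : F) * z
      map_add' := fun z z' => mul_add _ _ _
      map_smul' := fun t z => by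
        rw [RingHom.id_apply, mul_smul_comm]
      left_inv := fun z => by
        simp only
        rw [← mul_assoc, ← map_mul, Units.inv_mul, map_one, one_mul]
      right_inv := fun z => by
        simp only
        rw [← mul_assoc, ← map_mul, Units.mul_inv, map_one, one_mul] }
    (by
      change Continuous fun z => emb F (c : F) * z
      fun_prop)
    (by
      change Continuous fun z => emb F ((c⁻¹ : Fˣ) : F) * z
      fun_prop)

omit [NumberField F] [IsTotallyComplex F] in
theorem mulC_apply (c : Fˣ) (z : InfinitePlace F → ℂ) : mulC c z = emb F (c : F) * z := rfl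

omit [NumberField F] [IsTotallyComplex F] in
theorem norm_emb_pos (x : Fˣ) (w : InfinitePlace F) : 0 < ‖emb F (x : F) w‖ := by
  rw [norm_pos_iff, emb_apply]
  exact (map_ne_zero _).mpr x.ne_zero

omit [NumberField F] [IsTotallyComplex F] in
theorem bor_smul_pt (x : Fˣ) (c : F) {z : InfinitePlace F → ℂ} {y : InfinitePlace F → ℝ}
    (hy : ∀ w, 0 < y w) : (bor x c : GL (Fin 2) F) • (pt z y : Xi F) =
      pt (emb F (x : F) * z + emb F c) (fun w => ‖emb F (x : F) w‖ * y w) := by
  have hy' : ∀ w, 0 < ‖emb F (x : F) w‖ * y w := fun w => mul_pos (norm_emb_pos x w) (hy w)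
  funext w
  rw [Xi.smul_apply, map_bor]
  apply H3.ext
  · rw [H3.z_smul_of_upper (by simp), pt_z hy, pt_z hy']
    simp [emb_apply]
  · rw [H3.y_smul_of_upper (by simp), pt_y hy, pt_y hy']
    simp [emb_apply]

/-- **The converse**: if all constant terms of `toKap f` vanish then `f` is cuspidal. -/
theorem isCusp_of_mean (hcl : CFT.Global.ClTrivial S) (hU : OffS S U) {f : Xi F × D U → ℂ}
    (hf : ∀ (γ : GL (Fin 2) F) z, f (γ • z) = f z) (hc : ∀ d, Continuous fun x => f (x, d))
    (h0 : ∀ (x : Xi F) (g : GL (Fin 2) (Rf S)),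
      mean (diagOS S) (fun t : AS S => toKap S U f ((nn t : GL (Fin 2) (AS S)) • ⟨x, g⟩)) = 0) :
    IsCusp f := by
  intro d m hm hmd
  refine Filter.Eventually.of_forall fun y hy => ?_
  obtain ⟨x, c, g, rfl⟩ := exists_jS_bor hcl hU d
  obtain ⟨m', hm', hd'⟩ := exists_mod (jS S U g)
  have hyx : ∀ w, 0 < ‖emb F ((x⁻¹ : Fˣ) : F) w‖ * y w := fun w =>
    mul_pos (norm_emb_pos x⁻¹ w) (hy w)
  set y' : InfinitePlace F → ℝ := fun w => ‖emb F ((x⁻¹ : Fˣ) : F) w‖ * y w with hy'
  -- the function at the base point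
  set G : (InfinitePlace F → ℂ) → ℂ := fun z => f (pt z y', jS S U g) with hG
  have hGper : PerM m' G := by
    have h2 := perM_toKap hf hd' (pt (0 : InfinitePlace F → ℂ) y')
    intro a z
    have h3 := h2 a z
    simp only at h3
    rwa [nn_inf_smul_pt _ hyx, nn_inf_smul_pt _ hyx, zero_add, zero_add] at h3
  have hG0 : ∫ z in fdom F m', G z = 0 := by
    have h1 := mean_toKap hU hf hc (pt (0 : InfinitePlace F → ℂ) y') g hm' hd'
    rw [h0] at h1
    have h2 : (volume.real (fdom F m') : ℂ)⁻¹ ≠ 0 := by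
      refine inv_ne_zero ?_
      rw [Complex.ofReal_ne_zero, measureReal_def]
      exact (ENNReal.toReal_pos (vol_fdom_ne_zero m' hm') (vol_fdom_ne_top m' hm')).ne'
    have h3 := (mul_eq_zero.mp h1.symm).resolve_left h2
    have h4 : ∀ z : InfinitePlace F → ℂ, (nn z : GL (Fin 2) (Rinf F)) •
        (pt (0 : InfinitePlace F → ℂ) y' : Xi F) = pt z y' := by
      intro z
      rw [nn_inf_smul_pt _ hyx, zero_add]
    rw [← h3]
    exact congrArg _ (funext fun z => congrArg (fun x => f (x, jS S U g)) (h4 z).symm)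
  -- the function at `d`
  set H : (InfinitePlace F → ℂ) → ℂ := fun z => f (pt z y, bor x c • jS S U g) with hH
  have hHG : ∀ z, H z = G (emb F ((x⁻¹ : Fˣ) : F) * z + emb F (-((x⁻¹ : Fˣ) : F) * c)) := by
    intro z
    rw [hH, hG]
    simp only
    rw [← hf (bor x c)⁻¹, Prod.smul_mk, inv_smul_smul, bor_inv, bor_smul_pt _ _ hy]
  have hHper : PerM m H := by
    have h2 := perM_toKap hf hmd (pt (0 : InfinitePlace F → ℂ) y)
    intro a z
    have h3 := h2 a z
    simp only at h3
    rwa [nn_inf_smul_pt _ hy, nn_inf_smul_pt _ hy, zero_add, zero_add] at h3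
  have hGm : Continuous G := by
    have h1 : Continuous fun z : InfinitePlace F → ℂ => (pt z y' : Xi F) := by
      have h2 : (fun z : InfinitePlace F → ℂ => (pt z y' : Xi F)) =
          fun z => pt z fun w => Real.exp (Real.log (y' w)) := by
        funext z
        congr 1
        funext w
        exact (Real.exp_log (hyx w)).symm
      rw [h2]
      exact continuous_pt_exp.comp (f := fun z : InfinitePlace F → ℂ =>
        ((fun w => Real.log (y' w), z) : (InfinitePlace F → ℝ) × (InfinitePlace F → ℂ)))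
        (by fun_prop)
    exact (hc _).comp h1
  have hHm : Measurable H := by
    have h1 : H = fun z => G (emb F ((x⁻¹ : Fˣ) : F) * z + emb F (-((x⁻¹ : Fˣ) : F) * c)) :=
      funext hHG
    rw [h1]
    exact (hGm.comp (by fun_prop)).measurable
  -- the second lattice
  have hHper' : Aleph.IsPer ((mBasis F m' hm').map (mulC x).toLinearEquiv) H := by
    intro l hl z
    have h1 : Set.range ((mBasis F m' hm').map (mulC x).toLinearEquiv) =
        ((mulC x).toLinearEquiv.toLinearMap.restrictScalars ℤ) '' Set.range (mBasis F m' hm') := by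
      rw [← Set.range_comp]
      rfl
    rw [h1, ← Submodule.map_span] at hl
    obtain ⟨b, hb, rfl⟩ := hl
    rw [hHG, hHG]
    have h2 := hGper.isPer hm' b hb (emb F ((x⁻¹ : Fˣ) : F) * z + emb F (-((x⁻¹ : Fˣ) : F) * c))
    rw [← h2]
    congr 1
    change emb F ((x⁻¹ : Fˣ) : F) * (z + emb F (x : F) * b) + _ = _
    rw [mul_add, ← mul_assoc, ← map_mul, Units.inv_mul, map_one, one_mul]
    ring
  have h1 := Aleph.integral_change (volume : Measure (InfinitePlace F → ℂ)) (hHper.isPer hm)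
    hHper' hHm
  have h2 := Aleph.integral_map_basis (volume : Measure (InfinitePlace F → ℂ)) (mBasis F m' hm')
    (mulC x) H
  have h3 : ∫ z in ZSpan.fundamentalDomain (mBasis F m' hm'), H (mulC x z) = 0 := by
    rw [← fdom_eq m' hm']
    rw [← hG0, ← hGper.setIntegral_add hm' (emb F (-((x⁻¹ : Fˣ) : F) * c))]
    refine congrArg _ (funext fun z => ?_)
    rw [hHG, mulC_apply, ← mul_assoc, ← map_mul, Units.inv_mul, map_one, one_mul]
  rw [h3, mul_zero] at h2
  have hne : ∀ (κ : Type _) [Finite κ] (b : Basis κ ℝ (InfinitePlace F → ℂ)),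
      ((volume : Measure (InfinitePlace F → ℂ)).real (ZSpan.fundamentalDomain b) : ℂ) ≠ 0 := by
    intro κ _ b
    rw [Complex.ofReal_ne_zero, measureReal_def]
    exact (ENNReal.toReal_pos (Aleph.measure_fd_ne_zero _ _) (Aleph.measure_fd_ne_top _ _)).ne'
  have h4 := (mul_eq_zero.mp h2).resolve_left (hne _ _)
  rw [h4, mul_zero] at h1
  have h5 := (mul_eq_zero.mp h1.symm).resolve_left (hne _ _)
  rw [fdom_eq m hm]
  exact h5

/-- **The converse** in terms of `wh`. -/
theorem isCusp_of_wh_zero (hcl : CFT.Global.ClTrivial S) (hU : OffS S U) {f : Xi F × D U → ℂ}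
    (hf : ∀ (γ : GL (Fin 2) F) z, f (γ • z) = f z) (hc : ∀ d, Continuous fun x => f (x, d))
    {_ : CompactSpace (AS S ⧸ lat (OS S) (AS S))} (θ : AddChar (AS S) Circle)
    (h0 : ∀ p : Sp (Xi F) (Rf S), wh (OS S) θ (toKap S U f) 0 p = 0) : IsCusp f := by
  refine isCusp_of_mean hcl hU hf hc fun x g => ?_
  have h1 := h0 ⟨x, g⟩
  unfold wh coef at h1
  rw [← h1]
  refine Kap.mean_congr fun t => ?_
  rw [map_zero, neg_zero, ch_zero_left, one_mul]

end Fermat.Agent.LT.Adapt
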