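import Fermat.Agent.LT.Adapt.Fin
import Fermat.Agent.LT.Form
import Fermat.Agent.LT.IwaDatum
import Fermat.Agent.LT.HK.Sph
import Fermat.Agent.LT.HK.Prod

/-!
# The Hecke operators `T_v`, `v ∉ S`

* `NB H x y`: `y` is a neighbour of `x` in `GL₂(F_v)/(H Z)`; `mem_nbv_iff_NB` (helper8's `nbv`);
* `Tv U v f z = ∑ᶠ d' (_ : Nbr U v z.2 d'), f (z.1, d')`, `Tv_smul`, `Tv_eq_sum`;
* `Tv_jS`: `T_v` in terms of `toKap` and global matrices; `Tv_jS_hecke`: in terms of `Kap.hecke`.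
-/

set_option autoImplicit false

noncomputable section

open NumberField IsDedekindDomain Matrix WithZero HeightOneSpectrum
open scoped WithZero Topology

namespace Fermat.Agent.LT.Adapt

open Loc Lvl Kap
open Iwa (Datum val)

variable {F : Type*} [Field F] [NumberField F]

/-! ### Neighbours at one place -/

section Local

variable {v : HeightOneSpectrum (𝓞 F)}

/-- neighbours in `GL₂(F_v)/(H Z)` -/
def NB (H : Subgroup (GL (Fin 2) (v.adicCompletion F))) (x y : Cos H) : Prop :=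
  ∃ g h : GL (Fin 2) (v.adicCompletion F),
    (∃ ϖ : v.adicCompletion F, Valued.v ϖ = exp (-1 : ℤ) ∧
      (h : Matrix (Fin 2) (Fin 2) (v.adicCompletion F)) = !![ϖ, 0; 0, 1]) ∧
    x = Cos.mk H g ∧ y = Cos.mk H (g * h)

theorem NB.smul {H : Subgroup (GL (Fin 2) (v.adicCompletion F))} {x y : Cos H} (h : NB H x y)
    (γ : GL (Fin 2) (v.adicCompletion F)) : NB H (γ • x) (γ • y) := by
  obtain ⟨g, k, hk, rfl, rfl⟩ := h
  exact ⟨γ * g, k, hk, rfl, by rw [mul_assoc]; rfl⟩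

theorem datum_v_ϖ (𝔡 : Datum (val v)) : Valued.v 𝔡.ϖ = exp (-1 : ℤ) := by
  obtain ⟨𝔡', -, -, h⟩ := Iwa.exists_datum v
  rw [← h]
  exact 𝔡.v_ϖ_eq 𝔡'

/-- `(0 1; 1 0)` -/
def sw (v : HeightOneSpectrum (𝓞 F)) : GL (Fin 2) (v.adicCompletion F) :=
  Iwa.gl2 0 1 1 0 (by simp)

theorem sw_mem : sw v ∈ KO v := by
  refine mem_GLO_iff.mpr ⟨fun i j => ?_, fun i j => ?_⟩
  · fin_cases i <;> fin_cases j <;> simp [sw]
  · have : (sw v)⁻¹ = sw v := by
      rw [inv_eq_iff_mul_eq_one]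
      refine gl_ext fun i j => ?_
      rw [sw, Iwa.gl2_mul]
      fin_cases i <;> fin_cases j <;> simp
    rw [this]
    fin_cases i <;> fin_cases j <;> simp [sw]

theorem mem_nbv_iff_NB (𝔡 : Datum (val v)) {x y : Iwa.Vx (val v)} :
    y ∈ 𝔡.nbv x ↔ NB (KO v) x y := by
  have hswap : ∀ g : GL (Fin 2) (v.adicCompletion F), Cos.mk (KO v) (g * sw v) = Cos.mk (KO v) g :=
    fun g => Cos.mk_mul sw_mem
  rw [𝔡.mem_nbv]
  constructor
  · rintro ⟨d, rfl, rfl⟩
    obtain ⟨g, rfl⟩ := QuotientGroup.mk_surjective d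
    refine ⟨g * sw v, Iwa.gl2 𝔡.ϖ 0 0 1 (by simpa using 𝔡.ϖ_ne), ⟨𝔡.ϖ, datum_v_ϖ 𝔡, rfl⟩,
      (hswap g).symm, ?_⟩
    rw [𝔡.pr_wD_mk]
    have h1 : g * sw v * Iwa.gl2 𝔡.ϖ 0 0 1 (by simpa using 𝔡.ϖ_ne) = g * 𝔡.dg * sw v := by
      rw [mul_assoc, mul_assoc]
      congr 1
      rw [sw, Datum.dg, Iwa.gl2_mul, Iwa.gl2_mul]
      congr 1 <;> simp
    rw [h1]
    exact (hswap _).symm
  · rintro ⟨g, h, ⟨ϖ, hϖ, hh⟩, rfl, rfl⟩
    have hϖ0 : ϖ ≠ 0 := by
      rintro rfl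
      rw [map_zero] at hϖ
      exact exp_ne_zero hϖ.symm
    refine ⟨((g * sw v : GL (Fin 2) (v.adicCompletion F)) : Iwa.D (val v)), ?_, ?_⟩
    · rw [Iwa.pr_mk]
      exact hswap g
    · rw [𝔡.pr_wD_mk]
      have hu : ϖ / 𝔡.ϖ * 1 - 0 * 0 ≠ 0 := by
        rw [mul_one, mul_zero, sub_zero]
        exact div_ne_zero hϖ0 𝔡.ϖ_ne
      have h1 : g * h = g * sw v * 𝔡.dg * (sw v * Iwa.gl2 (ϖ / 𝔡.ϖ) 0 0 1 hu) := by
        rw [mul_assoc, mul_assoc]
        congr 1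
        refine gl_ext fun i j => ?_
        rw [sw, Datum.dg, Iwa.gl2_mul, Iwa.gl2_mul, Iwa.gl2_mul]
        have h2 : h i j = (!![ϖ, 0; 0, 1] : Matrix (Fin 2) (Fin 2) (v.adicCompletion F)) i j := by
          rw [← hh]
        rw [h2]
        have h3 : 𝔡.ϖ * (ϖ / 𝔡.ϖ) = ϖ := mul_div_cancel₀ _ 𝔡.ϖ_ne
        fin_cases i <;> fin_cases j <;> simp [h3]
      have hK : sw v * Iwa.gl2 (ϖ / 𝔡.ϖ) 0 0 1 hu ∈ KO v := by
        refine (KO v).mul_mem sw_mem ⟨fun i j => ?_, ?_⟩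
        · have h4 : Valued.v (ϖ / 𝔡.ϖ) = 1 := by
            rw [map_div₀, hϖ, datum_v_ϖ, div_self exp_ne_zero]
          fin_cases i <;> fin_cases j <;> simp [-map_div₀, h4]
        · have h4 : Valued.v (ϖ / 𝔡.ϖ) = 1 := by
            rw [map_div₀, hϖ, datum_v_ϖ, div_self exp_ne_zero]
          rw [GeneralLinearGroup.val_det_apply, Iwa.coe_gl2, Matrix.det_fin_two_of]
          simp [-map_div₀, h4]
      rw [h1]
      exact (Cos.mk_mul hK).symm

/-- the sum over the neighbours -/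
theorem finsum_NB (𝔡 : Datum (val v)) {H : Subgroup (GL (Fin 2) (v.adicCompletion F))}
    (hH : H = KO v) {M : Type*} [AddCommMonoid M] (f : Cos H → M)
    (g : GL (Fin 2) (v.adicCompletion F)) :
    ∑ᶠ (y : Cos H) (_ : NB H (Cos.mk H g) y), f y =
      ∑ b ∈ 𝔡.B, f (Cos.mk H (g * 𝔡.nt 1 b)) + f (Cos.mk H (g * 𝔡.dg)) := by
  subst hH
  rw [← 𝔡.sum_nbv_mk f g, ← finsum_mem_coe_finset]
  refine finsum_congr fun y => ?_
  have : NB (KO v) (Cos.mk (KO v) g) y ↔ y ∈ (𝔡.nbv ((g : Iwa.Vx (val v))) : Set _) := by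
    rw [Finset.mem_coe]
    exact (mem_nbv_iff_NB 𝔡).symm
  exact finsum_congr_Prop (propext this) fun _ => rfl

theorem finite_NB {H : Subgroup (GL (Fin 2) (v.adicCompletion F))} (hH : H = KO v) (x : Cos H) :
    {y | NB H x y}.Finite := by
  subst hH
  obtain ⟨𝔡, -⟩ := Iwa.exists_datum v
  refine (𝔡.nbv x).finite_toSet.subset fun y hy => ?_
  exact Finset.mem_coe.mpr ((mem_nbv_iff_NB 𝔡).mpr hy)

end Local

/-! ### The operator on `X_∞ × D U` -/

variable {U : Lev F} {v : HeightOneSpectrum (𝓞 F)} {f : Xi F × D U → ℂ}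

theorem nbr_iff {d d' : D U} :
    Nbr U v d d' ↔ (∀ w, w ≠ v → d' w = d w) ∧ NB (U.U v) (d v) (d' v) := Iff.rfl

theorem nbr_smul {d d' : D U} (γ : GL (Fin 2) F) : Nbr U v (γ • d) (γ • d') ↔ Nbr U v d d' := by
  have key : ∀ (γ : GL (Fin 2) F) {d d' : D U}, Nbr U v d d' → Nbr U v (γ • d) (γ • d') := by
    intro γ d d' h
    rw [nbr_iff] at h ⊢
    refine ⟨fun w hw => ?_, h.2.smul (gmap v γ)⟩
    rw [RProd.smul_apply, RProd.smul_apply, h.1 w hw]
  refine ⟨fun h => ?_, key γ⟩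
  have := key γ⁻¹ h
  rwa [inv_smul_smul, inv_smul_smul] at this

variable (U v) in
/-- **The Hecke operator `T_v`.** -/
def Tv (f : Xi F × D U → ℂ) (z : Xi F × D U) : ℂ :=
  ∑ᶠ (d' : D U) (_ : Nbr U v z.2 d'), f (z.1, d')

theorem Tv_smul (hf : ∀ (γ : GL (Fin 2) F) z, f (γ • z) = f z) (γ : GL (Fin 2) F)
    (z : Xi F × D U) : Tv U v f (γ • z) = Tv U v f z := by
  rw [Tv, Tv, ← finsum_comp_equiv (MulAction.toPerm γ : Equiv.Perm (D U))]
  refine finsum_congr fun d' => ?_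
  rw [MulAction.toPerm_apply]
  refine finsum_congr_Prop (propext (nbr_smul γ)) fun _ => ?_
  exact hf γ (z.1, d')

open Classical in
theorem image_upd (x : D U) :
    {d' | Nbr U v x d'} = HK.upd x v '' {y | NB (U.U v) (x v) y} := by
  ext d'
  constructor
  · intro h
    have h' := nbr_iff.mp h
    exact ⟨d' v, h'.2, HK.upd_eq fun w hw => (h'.1 w hw).symm⟩
  · rintro ⟨y, hy, rfl⟩
    refine nbr_iff.mpr ⟨fun w hw => HK.upd_of_ne x y hw, ?_⟩
    rw [HK.upd_self]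
    exact hy

theorem finite_nbr (hU : U.U v = KO v) (d : D U) : {d' | Nbr U v d d'}.Finite := by
  classical
  rw [image_upd]
  exact (finite_NB hU _).image _

open Classical in
/-- `T_v` as a finite sum over representatives at `v`. -/
theorem Tv_eq_sum (hU : U.U v = KO v) (𝔡 : Datum (val v)) (x : Xi F) (d : D U)
    (g : GL (Fin 2) (v.adicCompletion F)) (hg : d v = Cos.mk (U.U v) g) :
    Tv U v f (x, d) = ∑ b ∈ 𝔡.B, f (x, HK.upd d v (Cos.mk (U.U v) (g * 𝔡.nt 1 b))) +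
      f (x, HK.upd d v (Cos.mk (U.U v) (g * 𝔡.dg))) := by
  rw [← finsum_NB 𝔡 hU (fun y => f (x, HK.upd d v y)) g, ← hg]
  have h1 : Tv U v f (x, d) = ∑ᶠ d' ∈ {d' | Nbr U v d d'}, f (x, d') := rfl
  rw [h1, image_upd, finsum_mem_image (HK.upd_injective d v).injOn]
  rfl

/-! ### Global representatives -/

section Global

variable {S : Finset (HeightOneSpectrum (𝓞 F))}

/-- a system of residue representatives at `v` in `O_S`. -/
structure RepsAt (S : Finset (HeightOneSpectrum (𝓞 F))) (v : HeightOneSpectrum (𝓞 F))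
    (B : Finset F) : Prop where
  mem : ∀ b ∈ B, b ∈ OS S
  ex : ∀ x ∈ OS S, ∃ b ∈ B, v.valuation F (x - b) < 1
  uniq : ∀ b ∈ B, ∀ b' ∈ B, v.valuation F (b - b') < 1 → b = b'

/-- the datum at `v` with the uniformizer `π` and the representatives `-B`. -/
def datumOf (hv : v ∉ S) (π : F) (hπ : v.valuation F π = exp (-1 : ℤ)) (B : Finset F)
    (hB : RepsAt S v B) : Datum (val v) where
  ϖ := algebraMap F (v.adicCompletion F) π
  ϖ_ne := by
    rw [Ne, map_eq_zero]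
    rintro rfl
    rw [map_zero] at hπ
    exact exp_ne_zero hπ.symm
  ϖ_lt := by
    rw [Iwa.val_algebraMap, hπ, ← exp_zero, exp_lt_exp]
    norm_num
  le_of_lt x hx := by
    rw [Iwa.val_algebraMap, hπ]
    exact Iwa.le_exp_neg_one_of_lt hx
  B := B.map ⟨fun b => algebraMap F (v.adicCompletion F) (-b),
    (algebraMap F (v.adicCompletion F)).injective.comp neg_injective⟩
  B_le b hb := by
    obtain ⟨r, hr, rfl⟩ := Finset.mem_map.mp hb
    refine (Iwa.val_algebraMap v _).trans_le ?_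
    rw [Valuation.map_neg]
    exact hB.mem r hr v hv
  B_ex x hx := by
    obtain ⟨r, hr⟩ := Iwa.exists_val_sub_lt x hx
    have hr' : -(algebraMap (𝓞 F) F r) ∈ OS S := fun w _ => by
      rw [Valuation.map_neg]
      exact w.valuation_le_one r
    obtain ⟨b, hb, h⟩ := hB.ex _ hr'
    refine ⟨_, Finset.mem_map_of_mem _ hb, ?_⟩
    have e : x - algebraMap F (v.adicCompletion F) (-b) =
        (x - algebraMap F (v.adicCompletion F) (algebraMap (𝓞 F) F r)) -
        algebraMap F (v.adicCompletion F) (-(algebraMap (𝓞 F) F r) - b) := by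
      rw [map_sub, map_neg, map_neg]; ring
    change val v (x - algebraMap F (v.adicCompletion F) (-b)) < 1
    rw [e]
    refine Valuation.map_sub_lt _ hr ?_
    rw [Iwa.val_algebraMap]
    exact h
  B_uniq b hb b' hb' h := by
    obtain ⟨r, hr, rfl⟩ := Finset.mem_map.mp hb
    obtain ⟨r', hr', rfl⟩ := Finset.mem_map.mp hb'
    congr 1
    refine hB.uniq r hr r' hr' ?_
    have e : r - r' = -(-r - -r') := by ring
    rw [e, Valuation.map_neg, ← Iwa.val_algebraMap, map_sub]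
    exact h

/-- `(1 b; 0 π)` -/
abbrev alf (π : F) (hπ : π ≠ 0) (b : F) : GL (Fin 2) F :=
  GeneralLinearGroup.mkOfDetNeZero !![1, b; 0, π] (by simpa using hπ)

/-- `(π 0; 0 1)` -/
abbrev dlf (π : F) (hπ : π ≠ 0) : GL (Fin 2) F :=
  GeneralLinearGroup.mkOfDetNeZero !![π, 0; 0, 1] (by simpa using hπ)

omit [NumberField F] in
theorem alf_inv (π : F) (hπ : π ≠ 0) (b : F) : (alf π hπ b)⁻¹ =
    GeneralLinearGroup.scalar (Fin 2) (Units.mk0 π hπ)⁻¹ *
      Iwa.gl2 π (-b) 0 1 (by simpa using hπ) := by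
  rw [inv_eq_iff_mul_eq_one]
  refine gl_ext fun i j => ?_
  rw [Units.val_mul, Units.val_mul, GeneralLinearGroup.coe_scalar, Iwa.coe_gl2,
    show ((alf π hπ b : GL (Fin 2) F) : Matrix (Fin 2) (Fin 2) F) = !![1, b; 0, π] from rfl]
  fin_cases i <;> fin_cases j <;> simp [Matrix.mul_apply, Fin.sum_univ_two, hπ]
  ring

omit [NumberField F] in
theorem dlf_inv (π : F) (hπ : π ≠ 0) : (dlf π hπ)⁻¹ =
    GeneralLinearGroup.scalar (Fin 2) (Units.mk0 π hπ)⁻¹ *
      Iwa.gl2 1 0 0 π (by simpa using hπ) := by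
  rw [inv_eq_iff_mul_eq_one]
  refine gl_ext fun i j => ?_
  rw [Units.val_mul, Units.val_mul, GeneralLinearGroup.coe_scalar, Iwa.coe_gl2,
    show ((dlf π hπ : GL (Fin 2) F) : Matrix (Fin 2) (Fin 2) F) = !![π, 0; 0, 1] from rfl]
  fin_cases i <;> fin_cases j <;> simp [Matrix.mul_apply, Fin.sum_univ_two, hπ]

/-- a matrix of `GL₂(F)` in `GL₂(O_w)` -/
theorem gmap_mem_KO {w : HeightOneSpectrum (𝓞 F)} {γ : GL (Fin 2) F}
    (h : ∀ i j, w.valuation F (γ i j) ≤ 1)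
    (hdet : w.valuation F (γ : Matrix (Fin 2) (Fin 2) F).det = 1) : gmap w γ ∈ KO w := by
  refine ⟨fun i j => ?_, ?_⟩
  · rw [gmap_apply]
    change Valued.v (ι w (γ i j)) ≤ 1
    rw [v_ι]
    exact h i j
  · rw [gmap_det, Units.coe_map, GeneralLinearGroup.val_det_apply]
    change Valued.v (ι w (γ : Matrix (Fin 2) (Fin 2) F).det) = 1
    rw [v_ι]
    exact hdet

open Classical in
/-- moving `jS` by an element of `GL₂(F)` which is in `GL₂(O_w)` for all `w ∉ S`, `w ≠ v` -/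
theorem inv_smul_jS (hU : OffS S U) (hv : v ∉ S) {γ : GL (Fin 2) F}
    (hγ : ∀ w ∉ S, w ≠ v → gmap w γ ∈ KO w) (g : GL (Fin 2) (Rf S)) :
    γ⁻¹ • jS S U (gS S γ * g) = HK.upd (jS S U g) v (Cos.mk (U.U v) (gmap v γ⁻¹)) := by
  refine RProd.ext' fun w => ?_
  rw [RProd.smul_apply]
  by_cases hwv : w = v
  · subst hwv
    rw [HK.upd_self, jS_apply_of_notMem _ _ hv, smulF_def, Cos.smul_mk, mul_one]
  · rw [HK.upd_of_ne _ _ hwv]
    by_cases hw : w ∈ S
    · rw [jS_apply, jS_apply, map_mul, loc_gS hw, smulF_def, Cos.smul_mk, map_inv,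
        inv_mul_cancel_left]
    · rw [jS_apply_of_notMem _ _ hw, jS_apply_of_notMem _ _ hw, smul_base_iff_KZ hU hw, map_inv]
      exact (KZ w).inv_mem (Subgroup.mem_sup_left (hγ w hw hwv))

/-- **`T_v` on `toKap`.** -/
theorem Tv_jS (hU : OffS S U) (hv : v ∉ S) (hf : ∀ (γ : GL (Fin 2) F) z, f (γ • z) = f z)
    {π : F} (hπ0 : π ≠ 0) (hπ : v.valuation F π = exp (-1 : ℤ))
    (hπ' : ∀ w ∉ S, w ≠ v → w.valuation F π = 1) {B : Finset F} (hB : RepsAt S v B) (x : Xi F)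
    (g : GL (Fin 2) (Rf S)) :
    Tv U v f (x, jS S U g) = ∑ b ∈ B, toKap S U f (gA S (alf π hπ0 b) • ⟨x, g⟩) +
      toKap S U f (gA S (dlf π hπ0) • ⟨x, g⟩) := by
  classical
  have hg1 : jS S U g v = Cos.mk (U.U v) 1 := jS_apply_of_notMem _ _ hv
  rw [Tv_eq_sum (hU v hv) (datumOf hv π hπ B hB) x (jS S U g) 1 hg1]
  have hsc : ∀ (z : Fˣ) (γ : GL (Fin 2) F),
      Cos.mk (U.U v) (gmap v (GeneralLinearGroup.scalar (Fin 2) z * γ)) =
        Cos.mk (U.U v) (gmap v γ) := by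
    intro z γ
    rw [map_mul, gmap_scalar, Cos.mk_scalar_mul]
  congr 1
  · rw [datumOf, Finset.sum_map]
    refine Finset.sum_congr rfl fun b hb => ?_
    rw [toKap_gA hf]
    have hγ : ∀ w ∉ S, w ≠ v → gmap w (alf π hπ0 b) ∈ KO w := by
      intro w hw hwv
      refine gmap_mem_KO (fun i j => ?_) ?_
      · change w.valuation F ((!![1, b; 0, π] : Matrix (Fin 2) (Fin 2) F) i j) ≤ 1
        have h1 := hB.mem b hb w hw
        have h2 := (hπ' w hw hwv).le
        fin_cases i <;> fin_cases j <;> simp [h1, h2]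
      · change w.valuation F (!![1, b; 0, π] : Matrix (Fin 2) (Fin 2) F).det = 1
        rw [Matrix.det_fin_two_of]
        simpa using hπ' w hw hwv
    rw [inv_smul_jS hU hv hγ, alf_inv, hsc]
    congr 4
    refine gl_ext fun i j => ?_
    rw [one_mul]
    change _ = algebraMap F (v.adicCompletion F)
      ((!![π, -b; 0, 1] : Matrix (Fin 2) (Fin 2) F) i j)
    change (!![(algebraMap F (v.adicCompletion F) π) ^ 1, algebraMap F (v.adicCompletion F) (-b);
      0, 1] : Matrix (Fin 2) (Fin 2) (v.adicCompletion F)) i j = _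
    fin_cases i <;> fin_cases j <;> simp
  · rw [toKap_gA hf]
    have hγ : ∀ w ∉ S, w ≠ v → gmap w (dlf π hπ0) ∈ KO w := by
      intro w hw hwv
      refine gmap_mem_KO (fun i j => ?_) ?_
      · change w.valuation F ((!![π, 0; 0, 1] : Matrix (Fin 2) (Fin 2) F) i j) ≤ 1
        have h2 := (hπ' w hw hwv).le
        fin_cases i <;> fin_cases j <;> simp [h2]
      · change w.valuation F (!![π, 0; 0, 1] : Matrix (Fin 2) (Fin 2) F).det = 1
        rw [Matrix.det_fin_two_of]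
        simpa using hπ' w hw hwv
    rw [inv_smul_jS hU hv hγ, dlf_inv, hsc]
    congr 4
    refine gl_ext fun i j => ?_
    rw [one_mul]
    change _ = algebraMap F (v.adicCompletion F)
      ((!![1, 0; 0, π] : Matrix (Fin 2) (Fin 2) F) i j)
    change (!![1, 0; 0, algebraMap F (v.adicCompletion F) π] :
      Matrix (Fin 2) (Fin 2) (v.adicCompletion F)) i j = _
    fin_cases i <;> fin_cases j <;> simp

/-! ### `Kap.hecke` and `Kap.IsEig` -/

theorem repsAt_of_isReps {hv : v ∉ S} {p : OS S} (h : placeIdeal v hv = Ideal.span {p})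
    {R : Finset (OS S)} (hR : Kap.IsReps p R) :
    RepsAt S v (R.map ⟨Subtype.val, Subtype.val_injective⟩) where
  mem b hb := by
    obtain ⟨r, -, rfl⟩ := Finset.mem_map.mp hb
    exact r.2
  ex x hx := by
    obtain ⟨b, ⟨hb, hd⟩, -⟩ := hR ⟨x, hx⟩
    exact ⟨(b : F), Finset.mem_map_of_mem _ hb, (span_dvd_iff h _).mp hd⟩
  uniq b hb b' hb' hlt := by
    obtain ⟨r, hr, rfl⟩ := Finset.mem_map.mp hb
    obtain ⟨r', hr', rfl⟩ := Finset.mem_map.mp hb'
    obtain ⟨c, -, hc⟩ := hR r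
    have h1 : r = c := hc r ⟨hr, by rw [sub_self]; exact dvd_zero p⟩
    have h2 : r' = c := hc r' ⟨hr', (span_dvd_iff h _).mpr hlt⟩
    rw [h1, h2]

/-- **`T_v` on `toKap` is `Kap.hecke`.** -/
theorem Tv_jS_hecke (hU : OffS S U) (hf : ∀ (γ : GL (Fin 2) F) z, f (γ • z) = f z) {hv : v ∉ S}
    {p : OS S} (h : placeIdeal v hv = Ideal.span {p}) {u : (AS S)ˣ}
    (hu : algebraMap (OS S) (AS S) p = u) {R : Finset (OS S)} (hR : Kap.IsReps p R) (x : Xi F)
    (g : GL (Fin 2) (Rf S)) :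
    Tv U v f (x, jS S U g) = Kap.hecke u R (toKap S U f) ⟨x, g⟩ := by
  have hp : Prime p := prime_of_span h
  have hp0 : (p : F) ≠ 0 := fun h0 => hp.ne_zero (Subtype.ext h0)
  have hval : ∀ w ∉ S, w ≠ v → w.valuation F (p : F) = 1 := by
    intro w hw hwv
    refine le_antisymm (p.2 w hw) ?_
    by_contra hlt
    push Not at hlt
    apply hwv
    have h3 : Ideal.span {p} ≤ placeIdeal w hw := by
      rw [Ideal.span_singleton_le_iff_mem]
      exact hlt
    rw [← h] at h3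
    apply HeightOneSpectrum.ext
    refine ((v.isMaximal).eq_of_le w.isPrime.ne_top fun a ha => ?_).symm
    rw [← valuation_lt_one_iff_mem (K := F)] at ha ⊢
    exact h3 (show (intOS a : OS S) ∈ placeIdeal v hv from ha)
  rw [Tv_jS hU hv hf hp0 (valuation_eq_of_span h) hval (repsAt_of_isReps h hR), Finset.sum_map,
    Kap.hecke, add_comm]
  have hu' : algebraMap F (AS S) (p : F) = u := hu
  congr 1
  · congr 2
    refine gl_ext fun i j => ?_
    change algebraMap F (AS S) ((!![(p : F), 0; 0, 1] : Matrix (Fin 2) (Fin 2) F) i j) =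
      (!![(u : AS S), 0; 0, ((1 : (AS S)ˣ) : AS S)] : Matrix (Fin 2) (Fin 2) (AS S)) i j
    fin_cases i <;> fin_cases j <;> simp [hu']
  · refine Finset.sum_congr rfl fun b _ => ?_
    rw [← mul_smul]
    congr 2
    refine gl_ext fun i j => ?_
    have hb : algebraMap (OS S) (AS S) b = algebraMap F (AS S) (b : F) := rfl
    rw [Units.val_mul, coe_nn, coe_dg, hb]
    change algebraMap F (AS S) ((!![1, (b : F); 0, (p : F)] : Matrix (Fin 2) (Fin 2) F) i j) = _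
    fin_cases i <;> fin_cases j <;> simp [hu', Matrix.mul_apply, Fin.sum_univ_two]

open Classical in
/-- the eigenvalues as a function on the prime elements of `O_S`. -/
def lamS (S : Finset (HeightOneSpectrum (𝓞 F))) (lam : HeightOneSpectrum (𝓞 F) → ℂ) (p : OS S) :
    ℂ :=
  if h : ∃ (v : HeightOneSpectrum (𝓞 F)) (hv : v ∉ S), placeIdeal v hv = Ideal.span {p} then
    lam h.choose else 0

theorem lamS_eq {lam : HeightOneSpectrum (𝓞 F) → ℂ} {hv : v ∉ S} {p : OS S}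
    (h : placeIdeal v hv = Ideal.span {p}) : lamS S lam p = lam v := by
  have hex : ∃ (v : HeightOneSpectrum (𝓞 F)) (hv : v ∉ S), placeIdeal v hv = Ideal.span {p} :=
    ⟨v, hv, h⟩
  rw [lamS, dif_pos hex]
  congr 1
  obtain ⟨hw, h'⟩ := hex.choose_spec
  exact placeIdeal_injective (h'.trans h.symm)

/-- **Hecke eigenfunctions.** -/
theorem isEig_toKap [IsPrincipalIdealRing (OS S)] (hU : OffS S U)
    (hf : ∀ (γ : GL (Fin 2) F) z, f (γ • z) = f z) {lam : HeightOneSpectrum (𝓞 F) → ℂ}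
    (hT : ∀ v, v ∉ S → ∀ z, Tv U v f z = lam v * f z) :
    Kap.IsEig (A := AS S) (OS S) (lamS S lam) (toKap S U f) := by
  intro p hp
  obtain ⟨v, hv, h⟩ := exists_place hp
  obtain ⟨R, hR⟩ := exists_isReps_of_prime hp
  obtain ⟨u, hu⟩ := isUnit_algebraMap_OS S p hp.ne_zero
  refine ⟨u, R, hu.symm, hR, ?_⟩
  rintro ⟨x, g⟩
  rw [← Tv_jS_hecke hU hf h hu.symm hR, hT v hv, lamS_eq h]
  rfl

/-- an eigenvalue equation for `T_v` can be checked at the points `(x, jS g)`. -/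
theorem Tv_eq_iff (hcl : CFT.Global.ClTrivial S) (hU : OffS S U)
    (hf : ∀ (γ : GL (Fin 2) F) z, f (γ • z) = f z) (c : ℂ) :
    (∀ z, Tv U v f z = c * f z) ↔
      ∀ (x : Xi F) (g : GL (Fin 2) (Rf S)), Tv U v f (x, jS S U g) = c * f (x, jS S U g) := by
  refine ⟨fun h x g => h _, fun h => ?_⟩
  rintro ⟨x, d⟩
  obtain ⟨γ, g, rfl⟩ := exists_jS hcl hU d
  have h1 := Tv_smul (v := v) hf γ (γ⁻¹ • x, jS S U g)
  have h2 := hf γ (γ⁻¹ • x, jS S U g)
  rw [Prod.smul_mk, smul_inv_smul] at h1 h2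
  rw [h1, h2]
  exact h _ _

end Global

end Fermat.Agent.LT.Adapt

end
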